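/-
Project S35, cell **[TORIC]** (helper19): the vertical localisations of a chart in fraction
language.  Prefix `tori_`.

`B ⊆ F0` an `A0`-subalgebra (the overlap chart), `P` a prime of `B` (a component of the special
fibre).  `B_P ⊆ F0` and its maximal ideal are described by fractions:

* `tori_MemV P z`  : `z ∈ B_P`        (`∃ s ∉ P, s z ∈ B`);
* `tori_MemM P z`  : `z ∈ P B_P`      (`∃ s ∉ P, t ∈ P, s z = t`);
* `tori_UnitV P z` : `z ∈ (B_P)ˣ`     (`∃ s t ∉ P, s z = t`).

Mathlib only.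
-/
import Mathlib

set_option autoImplicit false
set_option linter.unusedSectionVars false

namespace Fermat.Agent.S35

universe v

section Defs

variable {A0 : Type*} [CommRing A0] {F0 : Type v} [Field F0] [Algebra A0 F0]
  {B : Subalgebra A0 F0}

/-- `z ∈ B_P` -/
def tori_MemV (P : Ideal B) (z : F0) : Prop := ∃ s : B, s ∉ P ∧ (s : F0) * z ∈ B

/-- `z ∈ P B_P` -/
def tori_MemM (P : Ideal B) (z : F0) : Prop := ∃ s t : B, s ∉ P ∧ t ∈ P ∧ (s : F0) * z = t

/-- `z` is a unit of `B_P` -/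
def tori_UnitV (P : Ideal B) (z : F0) : Prop := ∃ s t : B, s ∉ P ∧ t ∉ P ∧ (s : F0) * z = t

variable {P : Ideal B} [hP : P.IsPrime]

theorem tori_coe_ne_zero {s : B} (hs : s ∉ P) : (s : F0) ≠ 0 := by
  intro h
  apply hs
  have : s = 0 := Subtype.ext h
  rw [this]
  exact P.zero_mem

theorem tori_memV_of_mem {z : F0} (hz : z ∈ B) : tori_MemV P z :=
  ⟨1, fun h => hP.ne_top ((Ideal.eq_top_iff_one _).2 h), by
    rw [OneMemClass.coe_one, one_mul]; exact hz⟩

theorem tori_memV_of_memM {z : F0} (h : tori_MemM P z) : tori_MemV P z := by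
  obtain ⟨s, t, hs, -, hst⟩ := h
  exact ⟨s, hs, by rw [hst]; exact t.2⟩

theorem tori_memV_of_unitV {z : F0} (h : tori_UnitV P z) : tori_MemV P z := by
  obtain ⟨s, t, hs, -, hst⟩ := h
  exact ⟨s, hs, by rw [hst]; exact t.2⟩

theorem tori_memM_of_mem {t : B} (ht : t ∈ P) : tori_MemM P (t : F0) :=
  ⟨1, t, fun h => hP.ne_top ((Ideal.eq_top_iff_one _).2 h), ht, by
    rw [OneMemClass.coe_one, one_mul]⟩

theorem tori_unitV_of_not_mem {t : B} (ht : t ∉ P) : tori_UnitV P (t : F0) :=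
  ⟨1, t, fun h => hP.ne_top ((Ideal.eq_top_iff_one _).2 h), ht, by
    rw [OneMemClass.coe_one, one_mul]⟩

theorem tori_memM_zero : tori_MemM P (0 : F0) :=
  ⟨1, 0, fun h => hP.ne_top ((Ideal.eq_top_iff_one _).2 h), P.zero_mem, by
    rw [mul_zero, ZeroMemClass.coe_zero]⟩

theorem tori_unitV_one : tori_UnitV P (1 : F0) :=
  ⟨1, 1, fun h => hP.ne_top ((Ideal.eq_top_iff_one _).2 h),
    fun h => hP.ne_top ((Ideal.eq_top_iff_one _).2 h), by rw [mul_one]⟩

theorem tori_unitV_ne_zero {z : F0} (h : tori_UnitV P z) : z ≠ 0 := by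
  obtain ⟨s, t, -, ht, hst⟩ := h
  rintro rfl
  rw [mul_zero] at hst
  exact tori_coe_ne_zero ht hst.symm

theorem tori_memV_add {z w : F0} (hz : tori_MemV P z) (hw : tori_MemV P w) :
    tori_MemV P (z + w) := by
  obtain ⟨s, hs, hsz⟩ := hz
  obtain ⟨s', hs', hsw⟩ := hw
  refine ⟨s * s', fun h => (hP.mem_or_mem h).elim hs hs', ?_⟩
  have : ((s * s' : B) : F0) * (z + w) = (s' : F0) * ((s : F0) * z) + (s : F0) * ((s' : F0) * w) := by
    rw [MulMemClass.coe_mul]; ring
  rw [this]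
  exact add_mem (mul_mem s'.2 hsz) (mul_mem s.2 hsw)

theorem tori_memV_mul {z w : F0} (hz : tori_MemV P z) (hw : tori_MemV P w) :
    tori_MemV P (z * w) := by
  obtain ⟨s, hs, hsz⟩ := hz
  obtain ⟨s', hs', hsw⟩ := hw
  refine ⟨s * s', fun h => (hP.mem_or_mem h).elim hs hs', ?_⟩
  have : ((s * s' : B) : F0) * (z * w) = ((s : F0) * z) * ((s' : F0) * w) := by
    rw [MulMemClass.coe_mul]; ring
  rw [this]
  exact mul_mem hsz hsw

theorem tori_memV_neg {z : F0} (hz : tori_MemV P z) : tori_MemV P (-z) := by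
  obtain ⟨s, hs, hsz⟩ := hz
  exact ⟨s, hs, by rw [mul_neg]; exact neg_mem hsz⟩

theorem tori_memV_sub {z w : F0} (hz : tori_MemV P z) (hw : tori_MemV P w) :
    tori_MemV P (z - w) := by
  rw [sub_eq_add_neg]
  exact tori_memV_add hz (tori_memV_neg hw)

theorem tori_memV_one : tori_MemV P (1 : F0) := tori_memV_of_unitV tori_unitV_one

theorem tori_memV_pow {z : F0} (hz : tori_MemV P z) (n : ℕ) : tori_MemV P (z ^ n) := by
  induction n with
  | zero => rw [pow_zero]; exact tori_memV_one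
  | succ n ih => rw [pow_succ]; exact tori_memV_mul ih hz

theorem tori_memV_sum {ι : Type*} (s : Finset ι) (f : ι → F0) (h : ∀ i ∈ s, tori_MemV P (f i)) :
    tori_MemV P (∑ i ∈ s, f i) := by
  classical
  induction s using Finset.induction_on with
  | empty => rw [Finset.sum_empty]; exact tori_memV_of_memM tori_memM_zero
  | insert a s ha ih =>
    rw [Finset.sum_insert ha]
    exact tori_memV_add (h a (Finset.mem_insert_self a s))
      (ih fun i hi => h i (Finset.mem_insert_of_mem hi))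

theorem tori_memM_add {z w : F0} (hz : tori_MemM P z) (hw : tori_MemM P w) :
    tori_MemM P (z + w) := by
  obtain ⟨s, t, hs, ht, hst⟩ := hz
  obtain ⟨s', t', hs', ht', hst'⟩ := hw
  refine ⟨s * s', s' * t + s * t', fun h => (hP.mem_or_mem h).elim hs hs',
    P.add_mem (P.mul_mem_left _ ht) (P.mul_mem_left _ ht'), ?_⟩
  simp only [MulMemClass.coe_mul, AddMemClass.coe_add]
  rw [← hst, ← hst']
  ring

theorem tori_memM_neg {z : F0} (hz : tori_MemM P z) : tori_MemM P (-z) := by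
  obtain ⟨s, t, hs, ht, hst⟩ := hz
  exact ⟨s, -t, hs, P.neg_mem ht, by rw [mul_neg, hst, NegMemClass.coe_neg]⟩

theorem tori_memM_sub {z w : F0} (hz : tori_MemM P z) (hw : tori_MemM P w) :
    tori_MemM P (z - w) := by
  rw [sub_eq_add_neg]
  exact tori_memM_add hz (tori_memM_neg hw)

theorem tori_memM_mul_memV {z w : F0} (hz : tori_MemM P z) (hw : tori_MemV P w) :
    tori_MemM P (z * w) := by
  obtain ⟨s, t, hs, ht, hst⟩ := hz
  obtain ⟨s', hs', hsw⟩ := hw
  refine ⟨s * s', t * ⟨_, hsw⟩, fun h => (hP.mem_or_mem h).elim hs hs', P.mul_mem_right _ ht, ?_⟩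
  simp only [MulMemClass.coe_mul]
  rw [← hst]
  ring

theorem tori_memV_mul_memM {z w : F0} (hz : tori_MemV P z) (hw : tori_MemM P w) :
    tori_MemM P (z * w) := by
  rw [mul_comm]
  exact tori_memM_mul_memV hw hz

theorem tori_unitV_mul {z w : F0} (hz : tori_UnitV P z) (hw : tori_UnitV P w) :
    tori_UnitV P (z * w) := by
  obtain ⟨s, t, hs, ht, hst⟩ := hz
  obtain ⟨s', t', hs', ht', hst'⟩ := hw
  refine ⟨s * s', t * t', fun h => (hP.mem_or_mem h).elim hs hs',
    fun h => (hP.mem_or_mem h).elim ht ht', ?_⟩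
  simp only [MulMemClass.coe_mul]
  rw [← hst, ← hst']
  ring

theorem tori_unitV_inv {z : F0} (hz : tori_UnitV P z) : tori_UnitV P z⁻¹ := by
  have hz0 := tori_unitV_ne_zero hz
  obtain ⟨s, t, hs, ht, hst⟩ := hz
  refine ⟨t, s, ht, hs, ?_⟩
  rw [← hst]
  field_simp

theorem tori_unitV_div {z w : F0} (hz : tori_UnitV P z) (hw : tori_UnitV P w) :
    tori_UnitV P (z / w) := by
  rw [div_eq_mul_inv]
  exact tori_unitV_mul hz (tori_unitV_inv hw)

theorem tori_unitV_pow {z : F0} (hz : tori_UnitV P z) (n : ℕ) : tori_UnitV P (z ^ n) := by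
  induction n with
  | zero => rw [pow_zero]; exact tori_unitV_one
  | succ n ih => rw [pow_succ]; exact tori_unitV_mul ih hz

/-- unit + non-unit = unit -/
theorem tori_unitV_of_sub_memM {z w : F0} (hz : tori_UnitV P z) (h : tori_MemM P (w - z)) :
    tori_UnitV P w := by
  obtain ⟨s, t, hs, ht, hst⟩ := hz
  obtain ⟨s', t', hs', ht', hst'⟩ := h
  refine ⟨s * s', s' * t + s * t', fun h => (hP.mem_or_mem h).elim hs hs', ?_, ?_⟩
  · intro hmem
    have h1 : s' * t ∈ P := by
      have := P.sub_mem hmem (P.mul_mem_left s ht')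
      rwa [add_sub_cancel_right] at this
    exact (hP.mem_or_mem h1).elim hs' ht
  · simp only [MulMemClass.coe_mul, AddMemClass.coe_add]
    rw [← hst, ← hst']
    ring

/-- an element of `B_P` which is not in `P B_P` is a unit -/
theorem tori_unitV_of_memV_of_not_memM {z : F0} (hz : tori_MemV P z) (h : ¬ tori_MemM P z) :
    tori_UnitV P z := by
  obtain ⟨s, hs, hsz⟩ := hz
  refine ⟨s, ⟨_, hsz⟩, hs, fun ht => h ⟨s, ⟨_, hsz⟩, hs, ht, rfl⟩, rfl⟩

/-- a unit is not in the maximal ideal -/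
theorem tori_not_memM_of_unitV {z : F0} (hz : tori_UnitV P z) : ¬ tori_MemM P z := by
  obtain ⟨s, t, hs, ht, hst⟩ := hz
  rintro ⟨s', t', hs', ht', hst'⟩
  have h1 : s' * t = s * t' := by
    apply Subtype.ext
    simp only [MulMemClass.coe_mul]
    rw [← hst, ← hst']
    ring
  have h2 : s' * t ∈ P := by rw [h1]; exact P.mul_mem_left _ ht'
  exact (hP.mem_or_mem h2).elim hs' ht

/-- `a ≡ b mod P B_P` ⟹ `aⁿ ≡ bⁿ` -/
theorem tori_memM_pow_sub_pow {a b : F0} (ha : tori_MemV P a) (hb : tori_MemV P b)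
    (h : tori_MemM P (a - b)) (n : ℕ) : tori_MemM P (a ^ n - b ^ n) := by
  have h1 : (∑ i ∈ Finset.range n, a ^ i * b ^ (n - 1 - i)) * (a - b) = a ^ n - b ^ n :=
    (Commute.all a b).geom_sum₂_mul n
  rw [← h1]
  refine tori_memV_mul_memM (tori_memV_sum _ _ fun i _ => ?_) h
  exact tori_memV_mul (tori_memV_pow ha i) (tori_memV_pow hb _)

/-- `1 + (P B_P)` consists of units -/
theorem tori_unitV_of_sub_one_memM {z : F0} (h : tori_MemM P (z - 1)) : tori_UnitV P z :=
  tori_unitV_of_sub_memM tori_unitV_one h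

theorem tori_memM_div_unitV {z w : F0} (hz : tori_MemM P z) (hw : tori_UnitV P w) :
    tori_MemM P (z / w) := by
  rw [div_eq_mul_inv]
  exact tori_memM_mul_memV hz (tori_memV_of_unitV (tori_unitV_inv hw))

theorem tori_memV_algebraMap (a : A0) : tori_MemV P (algebraMap A0 F0 a) :=
  tori_memV_of_mem (B.algebraMap_mem a)

theorem tori_unitV_algebraMap {a : A0} (ha : IsUnit a) : tori_UnitV P (algebraMap A0 F0 a) := by
  have h1 : (algebraMap A0 B a : B) ∉ P := fun h =>
    hP.ne_top (Ideal.eq_top_of_isUnit_mem _ h (ha.map (algebraMap A0 B)))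
  exact tori_unitV_of_not_mem h1

end Defs

end Fermat.Agent.S35
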