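/-
Project S35, cell **[TORIC]** (helper19): the two vertical localisations and the semilocal Gauss
ring.  Prefix `tori_`.

`B ⊆ F0` the overlap chart, `P1, P2` the two components (`ϖ B = P1 ∩ P2`, incomparable).

* `tori_mem_O`, `tori_mem_piO`   : `B_{P1} ∩ B_{P2} ⊆ sfc_O`, `P1 B_{P1} ∩ P2 B_{P2} ⊆ ϖ·sfc_O`;
* `tori_*_map`                   : stability under an automorphism `τ` of `F0` preserving `B`, `P`;
* `tori_weak_approx`             : weak approximation at the two components;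
* `tori_h4a`                     : `g ≡ k_i mod P_i B_{P_i}` with constants `k_i ∈ A0ˣ`, `τ` a lift of
                                   the `Q`-power Frobenius of the constants ⟹
                                   `τ g / g^Q - 1 ∈ ϖ·sfc_O`.
-/
import Mathlib
import Fermat.Agent.S35.Toric.Vert
import Fermat.Agent.SS.CoreAssembly

set_option autoImplicit false
set_option linter.unusedSectionVars false

namespace Fermat.Agent.S35

open Fermat.Agent.SS Fermat.Agent.JT3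

universe v

section Two

variable {A0 : Type*} [CommRing A0] {F0 : Type v} [Field F0] [Algebra A0 F0]
  {B : Subalgebra A0 F0} (P1 P2 : Ideal B) [h1 : P1.IsPrime] [h2 : P2.IsPrime] {π : A0}
  (hrad : Ideal.span {algebraMap A0 B π} = P1 ⊓ P2) (h12 : ¬ P1 ≤ P2) (h21 : ¬ P2 ≤ P1)

include hrad h12 h21 in
/-- `B_{P1} ∩ B_{P2} ⊆ O` -/
theorem tori_mem_O {z : F0} (hz1 : tori_MemV P1 z) (hz2 : tori_MemV P2 z) :
    z ∈ sfc_O B.toSubring (algebraMap A0 F0 π) :=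
  ssa_mem_O_of_two P1 P2 hrad h12 h21 hz1 hz2

include hrad h21 in
theorem tori_memV_div_pi_left (hϖ : algebraMap A0 F0 π ≠ 0) {z : F0} (hz : tori_MemM P1 z) :
    tori_MemV P1 (z / algebraMap A0 F0 π) := by
  obtain ⟨s, t, hs, ht, hst⟩ := hz
  obtain ⟨t2, ht2, ht2'⟩ := SetLike.not_le_iff_exists.1 h21
  have hmem : t * t2 ∈ Ideal.span {algebraMap A0 B π} := by
    rw [hrad]
    exact ⟨P1.mul_mem_right _ ht, P2.mul_mem_left _ ht2⟩
  obtain ⟨c, hc⟩ := Ideal.mem_span_singleton.1 hmem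
  refine ⟨s * t2, fun h => (h1.mem_or_mem h).elim hs ht2', ?_⟩
  have hc' : (t : F0) * (t2 : F0) = algebraMap A0 F0 π * (c : F0) := by
    have := congrArg (fun w : B => (w : F0)) hc
    simpa only [MulMemClass.coe_mul, Subalgebra.coe_algebraMap] using this
  have : ((s * t2 : B) : F0) * (z / algebraMap A0 F0 π) = (c : F0) := by
    rw [MulMemClass.coe_mul]
    have h3 : (s : F0) * (t2 : F0) * (z / algebraMap A0 F0 π) =
        ((s : F0) * z) * (t2 : F0) / algebraMap A0 F0 π := by ring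
    rw [h3, hst, hc']
    field_simp
  rw [this]
  exact c.2

include hrad h12 h21 in
/-- `P1 B_{P1} ∩ P2 B_{P2} ⊆ ϖ O` -/
theorem tori_mem_piO (hϖ : algebraMap A0 F0 π ≠ 0) {z : F0} (hz1 : tori_MemM P1 z)
    (hz2 : tori_MemM P2 z) : z ∈ sfc_piO B.toSubring (algebraMap A0 F0 π) := by
  have hrad' : Ideal.span {algebraMap A0 B π} = P2 ⊓ P1 := by rw [hrad, inf_comm]
  refine ⟨z / algebraMap A0 F0 π, tori_mem_O P1 P2 hrad h12 h21
    (tori_memV_div_pi_left P1 P2 hrad h21 hϖ hz1)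
    (tori_memV_div_pi_left P2 P1 hrad' h12 hϖ hz2), ?_⟩
  field_simp

end Two

section Tau

variable {A0 : Type*} [CommRing A0] {F0 : Type v} [Field F0] [Algebra A0 F0]
  {B : Subalgebra A0 F0} {P : Ideal B} [hP : P.IsPrime] (τ : F0 ≃+* F0)
  (hτB : ∀ b ∈ B, τ b ∈ B)
  (hτP : ∀ b b' : B, (b' : F0) = τ (b : F0) → (b' ∈ P ↔ b ∈ P))

include hτB hτP in
theorem tori_memV_map {z : F0} (hz : tori_MemV P z) : tori_MemV P (τ z) := by
  obtain ⟨s, hs, hsz⟩ := hz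
  refine ⟨⟨τ (s : F0), hτB _ s.2⟩, fun h => hs ((hτP s ⟨τ (s : F0), hτB _ s.2⟩ rfl).1 h), ?_⟩
  show τ (s : F0) * τ z ∈ B
  rw [← map_mul]
  exact hτB _ hsz

include hτB hτP in
theorem tori_memM_map {z : F0} (hz : tori_MemM P z) : tori_MemM P (τ z) := by
  obtain ⟨s, t, hs, ht, hst⟩ := hz
  refine ⟨⟨τ (s : F0), hτB _ s.2⟩, ⟨τ (t : F0), hτB _ t.2⟩,
    fun h => hs ((hτP s ⟨τ (s : F0), hτB _ s.2⟩ rfl).1 h),
    (hτP t ⟨τ (t : F0), hτB _ t.2⟩ rfl).2 ht, ?_⟩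
  show τ (s : F0) * τ z = τ (t : F0)
  rw [← map_mul, hst]

include hτB hτP in
theorem tori_unitV_map {z : F0} (hz : tori_UnitV P z) : tori_UnitV P (τ z) := by
  obtain ⟨s, t, hs, ht, hst⟩ := hz
  refine ⟨⟨τ (s : F0), hτB _ s.2⟩, ⟨τ (t : F0), hτB _ t.2⟩,
    fun h => hs ((hτP s ⟨τ (s : F0), hτB _ s.2⟩ rfl).1 h),
    fun h => ht ((hτP t ⟨τ (t : F0), hτB _ t.2⟩ rfl).1 h), ?_⟩
  show τ (s : F0) * τ z = τ (t : F0)
  rw [← map_mul, hst]

end Tau

section Approx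

variable {A0 : Type*} [CommRing A0] {F0 : Type v} [Field F0] [Algebra A0 F0]
  {B : Subalgebra A0 F0} (P1 P2 : Ideal B) [h1 : P1.IsPrime] [h2 : P2.IsPrime]
  (h12 : ¬ P1 ≤ P2) (h21 : ¬ P2 ≤ P1)

include h12 in
/-- a unit of `B_{P1}` is congruent modulo `P1 B_{P1}` to an element of `B_{P1} ∩ B_{P2}` -/
theorem tori_approx_one {z : F0} (hz : tori_UnitV P1 z) :
    ∃ z' : F0, tori_MemV P1 z' ∧ tori_MemV P2 z' ∧ tori_MemM P1 (z' - z) := by
  obtain ⟨s, t, hs, ht, hst⟩ := hz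
  obtain ⟨h, hh1, hh2⟩ := SetLike.not_le_iff_exists.1 h12
  have hs0 : (s : F0) ≠ 0 := tori_coe_ne_zero hs
  by_cases hs2 : s ∈ P2
  · -- replace the denominator `s` by `s + h`
    have hs1' : s + h ∉ P1 := fun hm => hs (by
      have := P1.sub_mem hm hh1
      rwa [add_sub_cancel_right] at this)
    have hs2' : s + h ∉ P2 := fun hm => hh2 (by
      have := P2.sub_mem hm hs2
      rwa [add_sub_cancel_left] at this)
    have hs0' : ((s + h : B) : F0) ≠ 0 := tori_coe_ne_zero hs1'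
    refine ⟨(t : F0) / ((s + h : B) : F0), ⟨s + h, hs1', ?_⟩, ⟨s + h, hs2', ?_⟩, ?_⟩
    · rw [mul_div_cancel₀ _ hs0']; exact t.2
    · rw [mul_div_cancel₀ _ hs0']; exact t.2
    · refine ⟨s * (s + h), -(t * h), fun hm => (h1.mem_or_mem hm).elim hs hs1',
        P1.neg_mem (P1.mul_mem_left _ hh1), ?_⟩
      have hz' : z = (t : F0) / (s : F0) := by rw [← hst]; field_simp
      rw [hz']
      simp only [MulMemClass.coe_mul, AddMemClass.coe_add, NegMemClass.coe_neg] at hs0' ⊢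
      field_simp
      ring
  · refine ⟨z, ⟨s, hs, by rw [hst]; exact t.2⟩, ⟨s, hs2, by rw [hst]; exact t.2⟩, ?_⟩
    rw [sub_self]
    exact tori_memM_zero

include h12 h21 in
/-- **weak approximation** at the two components -/
theorem tori_weak_approx {s1 s2 : F0} (hs1 : tori_UnitV P1 s1) (hs2 : tori_UnitV P2 s2) :
    ∃ R0 : F0, tori_UnitV P1 R0 ∧ tori_UnitV P2 R0 ∧ tori_MemM P1 (R0 - s1) ∧
      tori_MemM P2 (R0 - s2) := by
  obtain ⟨z1, hz11, hz12, hz1⟩ := tori_approx_one P1 P2 h12 hs1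
  obtain ⟨z2, hz22, hz21, hz2⟩ := tori_approx_one P2 P1 h21 hs2
  obtain ⟨h, hh1, hh2⟩ := SetLike.not_le_iff_exists.1 h12
  obtain ⟨d, hd2, hd1⟩ := SetLike.not_le_iff_exists.1 h21
  have hdh1 : d + h ∉ P1 := fun hm => hd1 (by
    have := P1.sub_mem hm hh1
    rwa [add_sub_cancel_right] at this)
  have hdh2 : d + h ∉ P2 := fun hm => hh2 (by
    have := P2.sub_mem hm hd2
    rwa [add_sub_cancel_left] at this)
  have hdh0 : ((d + h : B) : F0) ≠ 0 := tori_coe_ne_zero hdh1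
  set θ : F0 := (d : F0) / ((d + h : B) : F0) with hθ
  -- `θ ≡ 1 mod P1`, `θ ≡ 0 mod P2`
  have hθ1 : tori_MemM P1 (1 - θ) := by
    refine ⟨d + h, h, hdh1, hh1, ?_⟩
    rw [hθ]
    simp only [AddMemClass.coe_add] at hdh0 ⊢
    field_simp
    ring
  have hθ2 : tori_MemM P2 θ := ⟨d + h, d, hdh2, hd2, by rw [hθ]; field_simp⟩
  have hθV1 : tori_MemV P1 θ := ⟨d + h, hdh1, by rw [hθ, mul_div_cancel₀ _ hdh0]; exact d.2⟩
  have hθV2 : tori_MemV P2 θ := tori_memV_of_memM hθ2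
  set R0 : F0 := θ * z1 + (1 - θ) * z2 with hR0
  have e1 : R0 - s1 = (1 - θ) * (z2 - z1) + (z1 - s1) := by rw [hR0]; ring
  have e2 : R0 - s2 = θ * (z1 - z2) + (z2 - s2) := by rw [hR0]; ring
  have hR1 : tori_MemM P1 (R0 - s1) := by
    rw [e1]
    exact tori_memM_add (tori_memM_mul_memV hθ1 (tori_memV_sub hz21 hz11)) hz1
  have hR2 : tori_MemM P2 (R0 - s2) := by
    rw [e2]
    exact tori_memM_add (tori_memM_mul_memV hθ2 (tori_memV_sub hz12 hz22)) hz2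
  exact ⟨R0, tori_unitV_of_sub_memM hs1 hR1, tori_unitV_of_sub_memM hs2 hR2, hR1, hR2⟩

end Approx

section H4a

variable {A0 : Type*} [CommRing A0] {F0 : Type v} [Field F0] [Algebra A0 F0]
  {B : Subalgebra A0 F0} {P : Ideal B} [hP : P.IsPrime] {π : A0}
  (τ : F0 ≃+* F0) (τ0 : A0 → A0) (Q : ℕ)
  (hτB : ∀ b ∈ B, τ b ∈ B)
  (hτP : ∀ b b' : B, (b' : F0) = τ (b : F0) → (b' ∈ P ↔ b ∈ P))
  (hτbase : ∀ a : A0, τ (algebraMap A0 F0 a) = algebraMap A0 F0 (τ0 a))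
  (hτ0 : ∀ a : A0, π ∣ τ0 a - a ^ Q)
  (hπP : algebraMap A0 B π ∈ P)

include hτB hτP hτbase hτ0 hπP in
/-- one component of (h4a): `g ≡ k mod P B_P`, `k ∈ A0ˣ` ⟹ `τ g / g^Q ≡ 1 mod P B_P` -/
theorem tori_h4a_one {g : F0} {k : A0} (hk : IsUnit k)
    (hg : tori_MemM P (g - algebraMap A0 F0 k)) : tori_MemM P (τ g / g ^ Q - 1) := by
  have hkU : tori_UnitV P (algebraMap A0 F0 k) := tori_unitV_algebraMap hk
  have hgU : tori_UnitV P g := tori_unitV_of_sub_memM hkU hg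
  have hg0 : g ≠ 0 := tori_unitV_ne_zero hgU
  have hgQ : tori_UnitV P (g ^ Q) := tori_unitV_pow hgU Q
  -- `τ g - g^Q = τ (g - k) + (τ k - k^Q) + (k^Q - g^Q)`
  have e : τ g - g ^ Q = τ (g - algebraMap A0 F0 k) +
      (algebraMap A0 F0 (τ0 k - k ^ Q)) + ((algebraMap A0 F0 k) ^ Q - g ^ Q) := by
    rw [map_sub, hτbase, map_sub, map_pow]
    ring
  have hA : tori_MemM P (τ (g - algebraMap A0 F0 k)) := tori_memM_map τ hτB hτP hg
  have hB : tori_MemM P (algebraMap A0 F0 (τ0 k - k ^ Q)) := by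
    obtain ⟨c, hc⟩ := hτ0 k
    rw [hc, map_mul]
    have h1 : tori_MemM P (algebraMap A0 F0 π) := by
      have := tori_memM_of_mem (F0 := F0) hπP
      rwa [Subalgebra.coe_algebraMap] at this
    exact tori_memM_mul_memV h1 (tori_memV_algebraMap c)
  have hC : tori_MemM P ((algebraMap A0 F0 k) ^ Q - g ^ Q) := by
    refine tori_memM_pow_sub_pow (tori_memV_of_unitV hkU) (tori_memV_of_unitV hgU) ?_ Q
    have := tori_memM_neg hg
    rwa [neg_sub] at this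
  have hnum : tori_MemM P (τ g - g ^ Q) := by
    rw [e]
    exact tori_memM_add (tori_memM_add hA hB) hC
  have e2 : τ g / g ^ Q - 1 = (τ g - g ^ Q) / g ^ Q := by
    have : g ^ Q ≠ 0 := pow_ne_zero Q hg0
    field_simp
  rw [e2]
  exact tori_memM_div_unitV hnum hgQ

end H4a

end Fermat.Agent.S35
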