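/-
Project S35, cell **[TORIC]** (helper19): THE ABSTRACT TORIC CORE.  Prefix `tori_`.

`M : ss_Model π x σ σ0 P1 P2` a two-component model (only its global fields are used; `σ` is
irrelevant, e.g. `σ = id` over an unramified base), `τ` an automorphism of `F0` (the square of a
Frobenius lift acting on the coefficients) with `τ x = x`, inducing on the constants `A0` a lift
`τ0` of the `Q`-power map, preserving the two components.  If `g ∈ F0ˣ` has all its orders
divisible by `m` and is on each component a constant times an `m`-th power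
(the output of [ABEL]), then

  `tori_core :  τ g = c · r^m · g^Q`   with `c ∈ A0`, `r ∈ F0ˣ`,

PROVIDED the local factorisations of [L]-φ (`tori_LocProvider`, helper10) are available: for every
`g'` which is a unit at both components, with `τ g' / g'^Q ≡ 1 mod ϖ O` and all orders divisible
by `m`, the hypothesis `hloc` of `sfc_main` holds for `τ g' / g'^Q` on both charts.

Proof: weak approximation `R₀ ≡ s_i` at the two components, `g' := g / R₀^m ≡ k_i`; (h4a) from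
`τ0 k ≡ k^Q`; `sfc_main`.
-/
import Mathlib
import Fermat.Agent.S35.Toric.Gauss
import Fermat.Agent.SS.SFC.Main
import Fermat.Prelude.Def_AlgebraicCurve_DivisorClassGroup

set_option autoImplicit false
set_option linter.unusedSectionVars false

namespace Fermat.Agent.S35

open Fermat.Agent.SS Fermat.Agent.JT3 AlgebraicCurve

universe v

section Defs

variable {A0 : Type*} [CommRing A0] {F0 : Type v} [Field F0] [Algebra A0 F0]

/-- the local hypothesis `hloc` of `sfc_main` for the function `f` on the chart `B` -/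
def tori_LocAt (π : A0) (m : ℕ) (f : F0) (B : Subalgebra A0 F0) : Prop :=
  ∀ 𝔫 : Ideal B, 𝔫.IsMaximal → algebraMap A0 B π ∈ 𝔫 →
    ∃ (b1 : B) (h : F0), b1 ∉ 𝔫 ∧ h ^ m * f ∈ B ∧
      h - (b1 : F0) ∈ sfc_piO B.toSubring (algebraMap A0 F0 π)

/-- **[L]-φ as a hypothesis**: the local factorisations of `τ g' / g'^Q` on both charts, for every
`g'` which is a unit at both components, congruent to `1` after `τ(·)/(·)^Q`, with all orders
divisible by `m`. -/
def tori_LocProvider (K : Type*) [Field K] [Algebra K F0] (π : A0) (x : F0) (τ : F0 ≃+* F0)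
    (Q : ℕ) (P1 P2 : Ideal (fc_chart A0 ({x, x⁻¹} : Set F0))) (m : ℕ) : Prop :=
  ∀ g' : F0, g' ≠ 0 → tori_UnitV P1 g' → tori_UnitV P2 g' →
    τ g' / g' ^ Q - 1 ∈
      sfc_piO (fc_chart A0 ({x, x⁻¹} : Set F0)).toSubring (algebraMap A0 F0 π) →
    (∀ P : Place K F0, (m : ℤ) ∣ P.ord g') →
    tori_LocAt π m (τ g' / g' ^ Q) (fc_chart A0 ({x} : Set F0)) ∧
      tori_LocAt π m (τ g' / g' ^ Q) (fc_chart A0 ({x⁻¹} : Set F0))

/-- a ring automorphism of `F0` which is semilinear over `A0` and fixes the coordinates preserves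
the chart. -/
theorem tori_chart_map_mem (τ : F0 ≃+* F0) (τ0 : A0 → A0)
    (hbase : ∀ a : A0, τ (algebraMap A0 F0 a) = algebraMap A0 F0 (τ0 a)) (S : Set F0)
    (hS : ∀ s ∈ S, τ s = s) {z : F0} (hz : z ∈ fc_chart A0 S) : τ z ∈ fc_chart A0 S := by
  have hadj : ∀ w ∈ Algebra.adjoin A0 S, τ w ∈ Algebra.adjoin A0 S := by
    intro w hw
    induction hw using Algebra.adjoin_induction with
    | mem s hs => rw [hS s hs]; exact Algebra.subset_adjoin hs
    | algebraMap a => rw [hbase]; exact Subalgebra.algebraMap_mem _ _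
    | add a b _ _ ha hb => rw [map_add]; exact add_mem ha hb
    | mul a b _ _ ha hb => rw [map_mul]; exact mul_mem ha hb
  let φ : Algebra.adjoin A0 S →+* Algebra.adjoin A0 S :=
    { toFun := fun w => ⟨τ w, hadj w w.2⟩
      map_one' := Subtype.ext (map_one τ)
      map_mul' := fun a b => Subtype.ext (map_mul τ _ _)
      map_zero' := Subtype.ext (map_zero τ)
      map_add' := fun a b => Subtype.ext (map_add τ _ _) }
  rw [fc_mem_chart] at hz ⊢
  exact IsIntegral.map_of_comp_eq φ (τ : F0 →+* F0) (by ext w; rfl) hz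

end Defs

section Core

variable {A0 : Type*} [CommRing A0] [IsDomain A0] [IsNoetherianRing A0]
  {K : Type*} [Field K] {F0 : Type v} [Field F0] [Algebra A0 F0] [Algebra K F0]
  {π : A0} {x : F0} {σ : F0 ≃+* F0} {σ0 : A0 ≃+* A0}
  {P1 P2 : Ideal (fc_chart A0 ({x, x⁻¹} : Set F0))}

/-- **THE ABSTRACT TORIC CORE.** -/
theorem tori_core (M : ss_Model π x σ σ0 P1 P2) (τ : F0 ≃+* F0) (τ0 : A0 → A0) (Q : ℕ)
    (hτbase : ∀ a : A0, τ (algebraMap A0 F0 a) = algebraMap A0 F0 (τ0 a))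
    (hτ0 : ∀ a : A0, π ∣ τ0 a - a ^ Q) (hτx : τ x = x)
    (hτP1 : ∀ b b' : fc_chart A0 ({x, x⁻¹} : Set F0), (b' : F0) = τ (b : F0) →
      (b' ∈ P1 ↔ b ∈ P1))
    (hτP2 : ∀ b b' : fc_chart A0 ({x, x⁻¹} : Set F0), (b' : F0) = τ (b : F0) →
      (b' ∈ P2 ↔ b ∈ P2))
    (m : ℕ) (hm : IsUnit (m : A0)) (hL : tori_LocProvider K π x τ Q P1 P2 m)
    {g : F0} (hg : g ≠ 0) (hord : ∀ P : Place K F0, (m : ℤ) ∣ P.ord g)
    {k1 k2 : A0} (hk1 : IsUnit k1) (hk2 : IsUnit k2) {s1 s2 : F0}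
    (hs1 : tori_UnitV P1 s1) (hs2 : tori_UnitV P2 s2)
    (hg1 : tori_MemM P1 (g - algebraMap A0 F0 k1 * s1 ^ m))
    (hg2 : tori_MemM P2 (g - algebraMap A0 F0 k2 * s2 ^ m)) :
    ∃ (c : A0) (r : F0), r ≠ 0 ∧ τ g = algebraMap A0 F0 c * r ^ m * g ^ Q := by
  have := M.isAlg
  have := M.prime1
  have := M.prime2
  have hϖ : algebraMap A0 F0 π ≠ 0 := by
    intro h
    apply M.hnu
    rw [h, inv_zero]
    exact zero_mem _
  have hτB : ∀ b ∈ fc_chart A0 ({x, x⁻¹} : Set F0), τ b ∈ fc_chart A0 ({x, x⁻¹} : Set F0) :=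
    fun b hb => tori_chart_map_mem τ τ0 hτbase _ (by
      rintro s (rfl | rfl)
      · exact hτx
      · rw [map_inv₀, hτx]) hb
  have hπmem : algebraMap A0 (fc_chart A0 ({x, x⁻¹} : Set F0)) π ∈ P1 ⊓ P2 := by
    rw [← M.hrad]; exact Ideal.subset_span rfl
  -- weak approximation
  obtain ⟨R0, hR1, hR2, hRs1, hRs2⟩ := tori_weak_approx P1 P2 M.h12 M.h21 hs1 hs2
  have hR0 : R0 ≠ 0 := tori_unitV_ne_zero hR1
  have hR0m : R0 ^ m ≠ 0 := pow_ne_zero m hR0
  set g' : F0 := g / R0 ^ m with hg'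
  have hg'0 : g' ≠ 0 := div_ne_zero hg hR0m
  -- `g' ≡ k_i` at `P_i`
  have hcong : ∀ (P : Ideal (fc_chart A0 ({x, x⁻¹} : Set F0))) [P.IsPrime] (k : A0) (s : F0),
      tori_UnitV P s → tori_UnitV P R0 → tori_MemM P (R0 - s) →
      tori_MemM P (g - algebraMap A0 F0 k * s ^ m) →
      tori_MemM P (g' - algebraMap A0 F0 k) := by
    intro P _ k s hs hR hRs hgk
    have e : g' - algebraMap A0 F0 k = ((g - algebraMap A0 F0 k * s ^ m) +
        algebraMap A0 F0 k * (s ^ m - R0 ^ m)) / R0 ^ m := by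
      rw [hg']
      field_simp
      ring
    rw [e]
    refine tori_memM_div_unitV (tori_memM_add hgk ?_) (tori_unitV_pow hR m)
    refine tori_memV_mul_memM (tori_memV_algebraMap k) ?_
    refine tori_memM_pow_sub_pow (tori_memV_of_unitV hs) (tori_memV_of_unitV hR) ?_ m
    have := tori_memM_neg hRs
    rwa [neg_sub] at this
  have hc1 := hcong P1 k1 s1 hs1 hR1 hRs1 hg1
  have hc2 := hcong P2 k2 s2 hs2 hR2 hRs2 hg2
  have hgU1 : tori_UnitV P1 g' := tori_unitV_of_sub_memM (tori_unitV_algebraMap hk1) hc1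
  have hgU2 : tori_UnitV P2 g' := tori_unitV_of_sub_memM (tori_unitV_algebraMap hk2) hc2
  -- (h4a)
  have h4a : τ g' / g' ^ Q - 1 ∈
      sfc_piO (fc_chart A0 ({x, x⁻¹} : Set F0)).toSubring (algebraMap A0 F0 π) :=
    tori_mem_piO P1 P2 M.hrad M.h12 M.h21 hϖ
      (tori_h4a_one τ τ0 Q hτB hτP1 hτbase hτ0 hπmem.1 hk1 hc1)
      (tori_h4a_one τ τ0 Q hτB hτP2 hτbase hτ0 hπmem.2 hk2 hc2)
  -- the orders of `g'`
  have hord' : ∀ P : Place K F0, (m : ℤ) ∣ P.ord g' := by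
    intro P
    rw [hg', div_eq_mul_inv, P.ord_mul hg (inv_ne_zero hR0m), P.ord_inv]
    have h1 : P.ord (R0 ^ m) = (m : ℤ) * P.ord R0 := by
      have := P.ord_zpow R0 (m : ℤ)
      rwa [zpow_natCast] at this
    rw [h1]
    exact dvd_add (hord P) (Dvd.dvd.neg_right (dvd_mul_right _ _))
  obtain ⟨hloc1, hloc2⟩ := hL g' hg'0 hgU1 hgU2 h4a hord'
  obtain ⟨c, r, hr0, hf⟩ := sfc_main π M.hxS1.2.1 m hm (τ g' / g' ^ Q) M.hfin1 M.hnu M.hxS1 M.hxS2
    hloc1 hloc2 h4a M.hH0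
  -- back to `g`
  have hτR0 : τ R0 ≠ 0 := (map_ne_zero τ).2 hR0
  refine ⟨c, r * τ R0 / R0 ^ Q, div_ne_zero (mul_ne_zero hr0 hτR0) (pow_ne_zero Q hR0), ?_⟩
  have hgQ : g' ^ Q ≠ 0 := pow_ne_zero Q hg'0
  have h1 : τ g' = algebraMap A0 F0 c * r ^ m * g' ^ Q := by
    rw [← hf]
    field_simp
  have h2 : g = g' * R0 ^ m := by rw [hg']; field_simp
  have h3 : τ g = τ g' * τ R0 ^ m := by
    conv_lhs => rw [h2]
    rw [map_mul, map_pow]
  have hR0Q : R0 ^ Q ≠ 0 := pow_ne_zero Q hR0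
  have hpow : (R0 ^ Q) ^ m = (R0 ^ m) ^ Q := by rw [← pow_mul, ← pow_mul, mul_comm]
  have h4 : (r * τ R0 / R0 ^ Q) ^ m * (g' * R0 ^ m) ^ Q = r ^ m * τ R0 ^ m * g' ^ Q := by
    rw [div_pow, mul_pow, mul_pow, hpow]
    have hne : (R0 ^ m) ^ Q ≠ 0 := pow_ne_zero Q hR0m
    rw [div_mul_eq_mul_div, div_eq_iff hne]
    ring
  rw [h3, h1]
  conv_rhs => rw [h2]
  rw [mul_assoc (algebraMap A0 F0 c) ((r * τ R0 / R0 ^ Q) ^ m), h4]
  ring

end Core

end Fermat.Agent.S35
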