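/-
Project S35, cell **[SFD]** "special-fibre divisor" (helper19), abstract local part.
Prefix `tori_sfd_`.

`R` a factorial noetherian normal domain (the local ring `B_𝔫` of a chart of the REGULAR
two-component model at a closed point of the special fibre: a smooth point, `𝔪 = (π, t)`, or a
regular node, `𝔪 = (u, v)`, `u v = π · unit`), `F = Frac R`, `π ∈ R`.

`tori_sfd_local` : if `g ∈ Fˣ` has all its orders at the HORIZONTAL primes of height one divisible
by `m` (`hdiv`, from the places: `ssl_hdiv_of_places`) and is a unit at the VERTICAL primes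
`(p)`, `p ∣ π` prime, then `g = ω · e₀^m` with `ω ∈ Rˣ` and `e₀` a unit at the vertical primes.
-/
import Mathlib
import Fermat.Agent.SS.Local.Smooth

set_option autoImplicit false
set_option linter.unusedSectionVars false

namespace Fermat.Agent.S35

open Fermat.Agent.SS

section Split

variable {R : Type*} [CommRing R] [IsDomain R] [UniqueFactorizationMonoid R]

/-- in a factorial domain every nonzero element is (vertical part) × (horizontal part) with respect
to `π`. -/
theorem tori_sfd_split (π : R) (a : R) (ha : a ≠ 0) :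
    ∃ av ah : R, a = av * ah ∧ av ≠ 0 ∧ ah ≠ 0 ∧ (∀ p : R, Prime p → p ∣ av → p ∣ π) ∧
      (∀ p : R, Prime p → p ∣ ah → ¬ p ∣ π) := by
  revert ha
  refine UniqueFactorizationMonoid.induction_on_prime a (fun h => absurd rfl h) ?_ ?_
  · intro x hx _
    refine ⟨1, x, (one_mul x).symm, one_ne_zero, hx.ne_zero, ?_, ?_⟩
    · intro p hp hp1
      exact absurd (isUnit_of_dvd_one hp1) hp.not_isUnit
    · intro p hp hpx
      exact absurd (isUnit_of_dvd_unit hpx hx) hp.not_isUnit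
  · intro a p ha0 hp ih _
    obtain ⟨av, ah, rfl, hav, hah, hv, hh⟩ := ih ha0
    by_cases hpπ : p ∣ π
    · refine ⟨p * av, ah, by ring, mul_ne_zero hp.ne_zero hav, hah, ?_, hh⟩
      intro r hr hrd
      rcases hr.dvd_or_dvd hrd with h | h
      · exact h.trans hpπ
      · exact hv r hr h
    · refine ⟨av, p * ah, by ring, hav, mul_ne_zero hp.ne_zero hah, hv, ?_⟩
      intro r hr hrd hrπ
      rcases hr.dvd_or_dvd hrd with h | h
      · exact hpπ (((hr.associated_of_dvd hp h).symm.dvd).trans hrπ)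
      · exact hh r hr h hrπ

end Split

section Local

variable {R : Type*} [CommRing R] [IsDomain R] [IsNoetherianRing R] [IsIntegrallyClosed R]
  [UniqueFactorizationMonoid R] {F : Type*} [Field F] [Algebra R F] [IsFractionRing R F]

/-- in a factorial domain a prime of height one is generated by a prime element. -/
theorem tori_sfd_height_one {𝔮 : Ideal R} (h𝔮 : 𝔮.IsPrime) (h1 : 𝔮.height = 1) :
    ∃ p : R, Prime p ∧ 𝔮 = Ideal.span {p} := by
  have h𝔮0 : 𝔮 ≠ ⊥ := Ideal.ne_bot_of_height_eq_one h1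
  obtain ⟨p, hp𝔮, hp⟩ := h𝔮.exists_mem_prime_of_ne_bot h𝔮0
  have hpp : (Ideal.span {p} : Ideal R).IsPrime := (Ideal.span_singleton_prime hp.ne_zero).2 hp
  have hp0 : (Ideal.span {p} : Ideal R) ≠ ⊥ := by
    rw [Ne, Ideal.span_singleton_eq_bot]; exact hp.ne_zero
  have hle : Ideal.span {p} ≤ 𝔮 := by
    rw [Ideal.span_le, Set.singleton_subset_iff]; exact hp𝔮
  exact ⟨p, hp, (ssl_eq_of_le_of_ne_bot hp0 h1 hle).symm⟩

/-- **[SFD], local form.** -/
theorem tori_sfd_local (π : R) (m : ℕ) {g : F} (hg : g ≠ 0)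
    (hdiv : ∀ 𝔮 : Ideal R, ssl_Horiz π 𝔮 → ∃ G : F, G ≠ 0 ∧ ssl_UnitAt F 𝔮 (g / G ^ m))
    (hvert : ∀ p : R, Prime p → p ∣ π → ssl_UnitAt F (Ideal.span {p}) g) :
    ∃ e₀ : F, e₀ ≠ 0 ∧ (∀ p : R, Prime p → p ∣ π → ssl_UnitAt F (Ideal.span {p}) e₀) ∧
      ∃ ω : Rˣ, g = algebraMap R F (ω : R) * e₀ ^ m := by
  obtain ⟨e', he'0, he'⟩ : ssl_PowModVert F π m g :=
    ssl_powModVert_of_locEq m hg hdiv fun _ h𝔮 _ => ssl_locEq_of_ufd h𝔮
  obtain ⟨a, b, hb, rfl⟩ := IsFractionRing.div_surjective (A := R) e'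
  have hb0 : b ≠ 0 := nonZeroDivisors.ne_zero hb
  have ha0 : a ≠ 0 := by
    rintro rfl
    rw [map_zero, zero_div] at he'0
    exact he'0 rfl
  obtain ⟨av, ah, rfl, hav, hah, hv, hh⟩ := tori_sfd_split π a ha0
  obtain ⟨bv, bh, rfl, hbv, hbh, hv', hh'⟩ := tori_sfd_split π b hb0
  have hF : ∀ {r : R}, r ≠ 0 → algebraMap R F r ≠ 0 := fun hr => ssl_algebraMap_ne_zero hr
  set e₀ : F := algebraMap R F ah / algebraMap R F bh with he₀
  have he₀0 : e₀ ≠ 0 := div_ne_zero (hF hah) (hF hbh)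
  -- `e₀` is a unit at the vertical primes
  have hev : ∀ p : R, Prime p → p ∣ π → ssl_UnitAt F (Ideal.span {p}) e₀ := by
    intro p hp hpπ
    refine ⟨ah, bh, ?_, ?_, ?_⟩
    · rw [Ideal.mem_span_singleton]
      exact fun h => hh p hp h hpπ
    · rw [Ideal.mem_span_singleton]
      exact fun h => hh' p hp h hpπ
    · rw [he₀, div_mul_cancel₀ _ (hF hbh)]
  refine ⟨e₀, he₀0, hev, ?_⟩
  -- the quotient `e' / e₀ = av / bv`
  have hquot : algebraMap R F (av * ah) / algebraMap R F (bv * bh) =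
      (algebraMap R F av / algebraMap R F bv) * e₀ := by
    rw [he₀, map_mul, map_mul]
    field_simp [hF hbv, hF hbh]
  have hkey : ∀ 𝔮 : Ideal R, 𝔮.IsPrime → 𝔮.height = 1 → ssl_UnitAt F 𝔮 (g / e₀ ^ m) := by
    intro 𝔮 h𝔮 h1
    have := h𝔮
    obtain ⟨p, hp, rfl⟩ := tori_sfd_height_one h𝔮 h1
    by_cases hπ𝔮 : π ∈ Ideal.span {p}
    · have hpπ : p ∣ π := Ideal.mem_span_singleton.1 hπ𝔮
      exact ssl_unitAt_div _ (hvert p hp hpπ) (ssl_unitAt_pow _ (hev p hp hpπ) m)
    · have h1' := he' _ ⟨h𝔮, h1, hπ𝔮⟩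
      have hvu : ssl_UnitAt F (Ideal.span {p}) (algebraMap R F av / algebraMap R F bv) := by
        refine ⟨av, bv, ?_, ?_, ?_⟩
        · rw [Ideal.mem_span_singleton]
          exact fun h => hπ𝔮 (Ideal.mem_span_singleton.2 (hv p hp h))
        · rw [Ideal.mem_span_singleton]
          exact fun h => hπ𝔮 (Ideal.mem_span_singleton.2 (hv' p hp h))
        · rw [div_mul_cancel₀ _ (hF hbv)]
      have : g / e₀ ^ m = g / (algebraMap R F (av * ah) / algebraMap R F (bv * bh)) ^ m *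
          (algebraMap R F av / algebraMap R F bv) ^ m := by
        rw [hquot, mul_pow]
        have h2 : (algebraMap R F av / algebraMap R F bv) ^ m ≠ 0 :=
          pow_ne_zero _ (div_ne_zero (hF hav) (hF hbv))
        have h3 : e₀ ^ m ≠ 0 := pow_ne_zero _ he₀0
        field_simp
      rw [this]
      exact ssl_unitAt_mul _ h1' (ssl_unitAt_pow _ hvu m)
  obtain ⟨ω, hω⟩ := ssl_krull_unit (R := R) (F := F)
    (div_ne_zero hg (pow_ne_zero m he₀0)) hkey
  refine ⟨ω, ?_⟩
  rw [hω, div_mul_cancel₀ _ (pow_ne_zero m he₀0)]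

end Local

end Fermat.Agent.S35
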