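/-
Project S35, cell **[TORIC]** (helper19): the toric core in VALUATION language.  Prefix `tori_`.

Context of `SS/Model/TwoPrimes.lean` ([TP]): `H : ssm_tp_Hyp π V1 V2` (the two Gauss valuations over
the Gauss ring of `A0[x]`), `B` a chart (`ssm_tp_Chart π B`), `P_i = ssm_tp_P B V_i`.

* dictionary  `z ∈ V_i ↔ tori_MemV P_i z`,  `z ∈ 𝔪(V_i) ↔ tori_MemM P_i z`,
  `z ∈ V_iˣ ↔ tori_UnitV P_i z`;
* `tori_toric_ff` : **the toric core in the function-field case**: for `g'` with all orders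
  divisible by `m` and CONSTANT reductions `k_i ∈ A0ˣ` at the two Gauss valuations,
  `τ g' = c · r^m · g'^Q`   (`tori_core` with `s_i = 1`), the local factorisations [L]-φ being a
  hypothesis (`tori_LocProvider`).
-/
import Mathlib
import Fermat.Agent.S35.Toric.Core
import Fermat.Agent.SS.Model.TwoPrimes

set_option autoImplicit false
set_option linter.unusedSectionVars false

namespace Fermat.Agent.S35

open Fermat.Agent.SS Fermat.Agent.JT3 AlgebraicCurve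

universe v

section Dict

variable {R : Type*} [CommRing R] [IsDomain R] [IsIntegrallyClosed R]
  {E : Type v} [Field E] [Algebra R E] [FaithfulSMul R E]
  {A : Type*} [CommRing A] [Algebra A E]
  {π : R} {V1 V2 : ValuationSubring E} {B : Subalgebra A E}

theorem tori_tp_memV1_iff (H : ssm_tp_Hyp π V1 V2) (hC : ssm_tp_Chart π B) {z : E} :
    z ∈ V1 ↔ tori_MemV (ssm_tp_P B V1) z := H.mem_V1_iff hC

theorem tori_tp_memV2_iff (H : ssm_tp_Hyp π V1 V2) (hC : ssm_tp_Chart π B) {z : E} :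
    z ∈ V2 ↔ tori_MemV (ssm_tp_P B V2) z := H.mem_V2_iff hC

theorem tori_tp_memM1_iff (H : ssm_tp_Hyp π V1 V2) (hC : ssm_tp_Chart π B) {z : E} :
    z ∈ V1.nonunits ↔ tori_MemM (ssm_tp_P B V1) z := by
  constructor
  · intro hz
    obtain ⟨s, hs, hsz⟩ := (H.mem_V1_iff hC).1 (ValuationSubring.nonunits_subset hz)
    refine ⟨s, ⟨(s : E) * z, hsz⟩, hs, ?_, rfl⟩
    rw [H.mem_P1 hC]
    show (s : E) * z ∈ V1.nonunits
    rw [mul_comm]
    exact ssm_tp_nonunits_mul V1 hz (hC.le H.over1 s.2)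
  · rintro ⟨s, t, hs, ht, hst⟩
    have hs' : (s : E) ∉ V1.nonunits := fun h => hs ((H.mem_P1 hC).2 h)
    have ht' : (t : E) ∈ V1.nonunits := (H.mem_P1 hC).1 ht
    have hs0 : (s : E) ≠ 0 := ssm_tp_ne_zero V1 hs'
    have : z = (t : E) * (s : E)⁻¹ := by
      rw [← hst]; field_simp
    rw [this]
    exact ssm_tp_nonunits_mul V1 ht' (ssm_tp_inv_mem V1 hs')

theorem tori_tp_memM2_iff (H : ssm_tp_Hyp π V1 V2) (hC : ssm_tp_Chart π B) {z : E} :
    z ∈ V2.nonunits ↔ tori_MemM (ssm_tp_P B V2) z := tori_tp_memM1_iff H.symm hC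

theorem tori_tp_unitV1_iff (H : ssm_tp_Hyp π V1 V2) (hC : ssm_tp_Chart π B) {z : E} :
    (z ∈ V1 ∧ z ∉ V1.nonunits) ↔ tori_UnitV (ssm_tp_P B V1) z := by
  have := H.P1_isPrime hC
  constructor
  · rintro ⟨hz, hzn⟩
    exact tori_unitV_of_memV_of_not_memM ((tori_tp_memV1_iff H hC).1 hz)
      (fun h => hzn ((tori_tp_memM1_iff H hC).2 h))
  · intro hz
    exact ⟨(tori_tp_memV1_iff H hC).2 (tori_memV_of_unitV hz),
      fun h => tori_not_memM_of_unitV hz ((tori_tp_memM1_iff H hC).1 h)⟩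

theorem tori_tp_unitV2_iff (H : ssm_tp_Hyp π V1 V2) (hC : ssm_tp_Chart π B) {z : E} :
    (z ∈ V2 ∧ z ∉ V2.nonunits) ↔ tori_UnitV (ssm_tp_P B V2) z := tori_tp_unitV1_iff H.symm hC

end Dict

section FunField

open IntermediateField

variable {A0 L : Type*} {F0 : Type v} [CommRing A0] [IsDomain A0] [IsDiscreteValuationRing A0]
  [Field L] [Field F0] [Algebra A0 L] [IsFractionRing A0 L] [Algebra L F0] [Algebra A0 F0]
  [IsScalarTower A0 L F0]

/-- **The toric core in the function-field case, valuation language.** -/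
theorem tori_toric_ff {K : Type*} [Field K] [Algebra K F0]
    {π : A0} (hπ : Irreducible π) {x : F0} (hx : Transcendental L x)
    {V1 V2 : ValuationSubring F0}
    (H : ssm_tp_Hyp (algebraMap A0 (Algebra.adjoin A0 ({x} : Set F0)) π) V1 V2)
    {σ : F0 ≃+* F0} {σ0 : A0 ≃+* A0}
    (M : ss_Model π x σ σ0 (ssm_tp_P (fc_chart A0 ({x, x⁻¹} : Set F0)) V1)
      (ssm_tp_P (fc_chart A0 ({x, x⁻¹} : Set F0)) V2))
    (τ : F0 ≃+* F0) (τ0 : A0 → A0) (Q : ℕ)
    (hτbase : ∀ a : A0, τ (algebraMap A0 F0 a) = algebraMap A0 F0 (τ0 a))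
    (hτ0 : ∀ a : A0, π ∣ τ0 a - a ^ Q) (hτx : τ x = x)
    (hτV1 : ∀ z : F0, τ z ∈ V1.nonunits ↔ z ∈ V1.nonunits)
    (hτV2 : ∀ z : F0, τ z ∈ V2.nonunits ↔ z ∈ V2.nonunits)
    (m : ℕ) (hm : IsUnit (m : A0))
    (hL : tori_LocProvider K π x τ Q (ssm_tp_P (fc_chart A0 ({x, x⁻¹} : Set F0)) V1)
      (ssm_tp_P (fc_chart A0 ({x, x⁻¹} : Set F0)) V2) m)
    {g : F0} (hg : g ≠ 0) (hord : ∀ P : Place K F0, (m : ℤ) ∣ P.ord g)
    {k1 k2 : A0} (hk1 : IsUnit k1) (hk2 : IsUnit k2)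
    (hg1 : g - algebraMap A0 F0 k1 ∈ V1.nonunits)
    (hg2 : g - algebraMap A0 F0 k2 ∈ V2.nonunits) :
    ∃ (c : A0) (r : F0), r ≠ 0 ∧ τ g = algebraMap A0 F0 c * r ^ m * g ^ Q := by
  have hxA : Transcendental A0 x := fc_ff_transcendental (L := L) hx
  have : IsIntegrallyClosed (Algebra.adjoin A0 ({x} : Set F0)) := fc_ff_isIntegrallyClosed hxA
  have : FaithfulSMul (Algebra.adjoin A0 ({x} : Set F0)) F0 :=
    (faithfulSMul_iff_algebraMap_injective _ _).2 Subtype.val_injective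
  have hC := ssm_tp_ff_chart12 (L := L) hπ hx
  have := M.prime1
  have := M.prime2
  refine tori_core M τ τ0 Q hτbase hτ0 hτx ?_ ?_ m hm hL hg hord hk1 hk2
    (s1 := 1) (s2 := 1) tori_unitV_one tori_unitV_one ?_ ?_
  · intro b b' hb
    rw [H.mem_P1 hC, H.mem_P1 hC, hb]
    exact hτV1 _
  · intro b b' hb
    rw [H.mem_P2 hC, H.mem_P2 hC, hb]
    exact hτV2 _
  · rw [one_pow, mul_one]
    exact (tori_tp_memM1_iff H hC).1 hg1
  · rw [one_pow, mul_one]
    exact (tori_tp_memM2_iff H hC).1 hg2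

end FunField

end Fermat.Agent.S35
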