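/-
Project S35, cell **[SFD]** "special-fibre divisor" (helper19), chart form.  Prefix `tori_sfd_`.

`B ⊆ F0` a chart (noetherian, integrally closed, fraction field `F0`) of the two-component model
over the discrete valuation ring `A0`; `P1, P2` its two vertical primes (`ϖ B = P1 ∩ P2`);
`𝔫` a prime of `B` containing `ϖ` whose local ring `R = B_𝔫 = ssl_locSub F0 𝔫` is FACTORIAL
(a smooth point: `tori_sfd_ufd_of_smooth`; a regular node: `tori_sfd_ufd_of_node`).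

* `tori_sfd_chart`     : `g` a unit at `P1` and `P2`, all orders at the places of `F0 / K` divisible
                         by `m`  ⟹  `g = ω · e₀^m`, `ω ∈ (B_𝔫)ˣ`, `e₀` a unit at every vertical
                         prime element of `B_𝔫`;
* `tori_sfd_PtData`    : a prime element `p` of `B_𝔫` dividing `ϖ` with `P ⊆ p B_𝔫`
                         (`p = ϖ` at a smooth point, `p = v` at a regular node);
* `tori_sfd_unitV_of`  : then `e₀` is a unit of `B_P` (`tori_UnitV P e₀`).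
-/
import Mathlib
import Fermat.Agent.S35.Toric.SFDLocal
import Fermat.Agent.S35.Toric.Gauss
import Fermat.Agent.SS.Local.Chart

set_option autoImplicit false
set_option linter.unusedSectionVars false
set_option linter.style.haveILetI false

namespace Fermat.Agent.S35

open Fermat.Agent.SS Fermat.Agent.JT3 IsLocalRing AlgebraicCurve

universe v

section Chart

variable {A0 : Type*} [CommRing A0] [IsDomain A0] [IsDiscreteValuationRing A0]
  {K : Type*} [Field K] [Algebra A0 K] [IsFractionRing A0 K]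
  {F0 : Type v} [Field F0] [Algebra A0 F0] [Algebra K F0] [IsScalarTower A0 K F0]
variable {B : Subalgebra A0 F0} [IsFractionRing B F0] [IsNoetherianRing B] [IsIntegrallyClosed B]
variable (𝔫 : Ideal B) [h𝔫 : 𝔫.IsPrime] {π : A0}

/-- a principal prime ideal `(p) ≠ 0` of a noetherian domain has height one. -/
theorem tori_sfd_height_span {R : Type*} [CommRing R] [IsDomain R] [IsNoetherianRing R] {p : R}
    (hp : Prime p) : (Ideal.span {p} : Ideal R).height = 1 := by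
  haveI : (Ideal.span {p} : Ideal R).IsPrime := (Ideal.span_singleton_prime hp.ne_zero).2 hp
  apply le_antisymm
  · refine Ideal.height_le_one_of_isPrincipal_of_mem_minimalPrimes (Ideal.span {p}) _ ?_
    exact ⟨⟨inferInstance, le_rfl⟩, fun J hJ hle => hJ.2⟩
  · rw [Order.one_le_iff_pos, pos_iff_ne_zero, Ne, Ideal.height_eq_zero_iff_eq_bot,
      Ideal.span_singleton_eq_bot]
    exact hp.ne_zero

variable (P1 P2 : Ideal B) [h1 : P1.IsPrime] [h2 : P2.IsPrime]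
  (hrad : Ideal.span {algebraMap A0 B π} = P1 ⊓ P2) (h12 : ¬ P1 ≤ P2) (h21 : ¬ P2 ≤ P1)

include hrad h12 h21 in
/-- **[SFD], chart form.** -/
theorem tori_sfd_chart (hπ : Irreducible π) (hϖ0 : algebraMap A0 F0 π ≠ 0)
    [UniqueFactorizationMonoid (ssl_locSub F0 𝔫)] (m : ℕ) {g : F0} (hg : g ≠ 0)
    (hord : ∀ P : Place K F0, (m : ℤ) ∣ P.ord g)
    (hg1 : tori_UnitV P1 g) (hg2 : tori_UnitV P2 g) :
    ∃ e₀ ω : F0, e₀ ≠ 0 ∧ g = ω * e₀ ^ m ∧
      (∃ s t : B, s ∉ 𝔫 ∧ t ∉ 𝔫 ∧ (s : F0) * ω = t) ∧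
      ∀ p : ssl_locSub F0 𝔫, Prime p →
        p ∣ algebraMap B (ssl_locSub F0 𝔫) (algebraMap A0 B π) →
        ssl_UnitAt F0 (Ideal.span {p}) e₀ := by
  haveI := ssl_loc_isNoetherianRing (F0 := F0) 𝔫
  haveI := ssl_loc_isIntegrallyClosed (F0 := F0) 𝔫
  have hdiv : ∀ 𝔮 : Ideal (ssl_locSub F0 𝔫),
      ssl_Horiz (algebraMap B (ssl_locSub F0 𝔫) (algebraMap A0 B π)) 𝔮 →
      ∃ G : F0, G ≠ 0 ∧ ssl_UnitAt F0 𝔮 (g / G ^ m) := fun 𝔮 h𝔮 =>
    ssl_hdiv_of_places (K := K) (R := ssl_locSub F0 𝔫) hπ hg m hord 𝔮 h𝔮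
  -- `g` and `g⁻¹` lie in the semilocal Gauss ring of the chart
  have hgO : g ∈ sfc_O B.toSubring (algebraMap A0 F0 π) :=
    tori_mem_O P1 P2 hrad h12 h21 (tori_memV_of_unitV hg1) (tori_memV_of_unitV hg2)
  have hgO' : g⁻¹ ∈ sfc_O B.toSubring (algebraMap A0 F0 π) :=
    tori_mem_O P1 P2 hrad h12 h21 (tori_memV_of_unitV (tori_unitV_inv hg1))
      (tori_memV_of_unitV (tori_unitV_inv hg2))
  have hvert : ∀ p : ssl_locSub F0 𝔫, Prime p →
      p ∣ algebraMap B (ssl_locSub F0 𝔫) (algebraMap A0 B π) →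
      ssl_UnitAt F0 (Ideal.span {p}) g := by
    intro p hp hpπ
    haveI hpp : (Ideal.span {p} : Ideal (ssl_locSub F0 𝔫)).IsPrime :=
      (Ideal.span_singleton_prime hp.ne_zero).2 hp
    have hh := tori_sfd_height_span hp
    have hmem : algebraMap B (ssl_locSub F0 𝔫) (algebraMap A0 B π) ∈
        (Ideal.span {p} : Ideal (ssl_locSub F0 𝔫)) := Ideal.mem_span_singleton.2 hpπ
    rw [ssl_unitAt_iff _ hg]
    exact ⟨ssl_point_vert 𝔫 hϖ0 (sfc_O B.toSubring (algebraMap A0 F0 π)) (fun z hz => hz)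
        _ hpp hh hmem g hgO,
      ssl_point_vert 𝔫 hϖ0 (sfc_O B.toSubring (algebraMap A0 F0 π)) (fun z hz => hz)
        _ hpp hh hmem g⁻¹ hgO'⟩
  obtain ⟨e₀, he₀, hev, ω, hω⟩ := tori_sfd_local (R := ssl_locSub F0 𝔫) (F := F0)
    (algebraMap B (ssl_locSub F0 𝔫) (algebraMap A0 B π)) m hg hdiv hvert
  refine ⟨e₀, ((ω : ssl_locSub F0 𝔫) : F0), he₀, hω, ?_, hev⟩
  -- `ω ∈ (B_𝔫)ˣ` in fraction form
  obtain ⟨a, s, hs, hωs⟩ := (ssl_mem_loc 𝔫).1 ((ω : ssl_locSub F0 𝔫)).2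
  refine ⟨s, a, hs, ?_, by rw [mul_comm]; exact hωs⟩
  intro ha
  -- if `a ∈ 𝔫` then `ω = a / s` is not a unit
  have h1 : algebraMap B (ssl_locSub F0 𝔫) s * (ω : ssl_locSub F0 𝔫) =
      algebraMap B (ssl_locSub F0 𝔫) a := Subtype.ext (by
    show (s : F0) * ((ω : ssl_locSub F0 𝔫) : F0) = (a : F0)
    rw [← hωs, mul_comm])
  have h2 : IsUnit (algebraMap B (ssl_locSub F0 𝔫) a) := by
    rw [← h1]
    exact (ssl_loc_isUnit 𝔫 hs).mul ω.isUnit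
  exact ((IsLocalization.AtPrime.isUnit_to_map_iff (ssl_locSub F0 𝔫) 𝔫 a).1 h2) ha

/-- **the vertical prime `P` at the point `𝔫`**: a prime element `p` of `B_𝔫` dividing `ϖ` with
`P ⊆ p B_𝔫`. -/
def tori_sfd_PtData (π : A0) (P : Ideal B) : Prop :=
  ∃ p : ssl_locSub F0 𝔫, Prime p ∧
    p ∣ algebraMap B (ssl_locSub F0 𝔫) (algebraMap A0 B π) ∧
    ∀ b ∈ P, p ∣ algebraMap B (ssl_locSub F0 𝔫) b

/-- a unit at the vertical prime element of the point is a unit of `B_P`. -/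
theorem tori_sfd_unitV_of {P : Ideal B} [hP : P.IsPrime] (hP𝔫 : P ≤ 𝔫)
    (hpt : tori_sfd_PtData 𝔫 π P) {e₀ : F0}
    (hev : ∀ p : ssl_locSub F0 𝔫, Prime p →
      p ∣ algebraMap B (ssl_locSub F0 𝔫) (algebraMap A0 B π) →
      ssl_UnitAt F0 (Ideal.span {p}) e₀) : tori_UnitV P e₀ := by
  obtain ⟨p, hp, hpπ, hpP⟩ := hpt
  obtain ⟨a, s, ha, hs, hes⟩ := hev p hp hpπ
  obtain ⟨a', s1, hs1, ha'⟩ := (ssl_mem_loc 𝔫).1 a.2
  obtain ⟨s', s2, hs2, hs'⟩ := (ssl_mem_loc 𝔫).1 s.2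
  -- `a' ∉ P`, `s' ∉ P`
  have key : ∀ (r : ssl_locSub F0 𝔫) (r' t : B), t ∉ 𝔫 → (r : F0) * (t : F0) = (r' : F0) →
      r ∉ (Ideal.span {p} : Ideal (ssl_locSub F0 𝔫)) → r' ∉ P := by
    intro r r' t ht hrt hr hr'
    apply hr
    rw [Ideal.mem_span_singleton]
    have h1 : r * algebraMap B (ssl_locSub F0 𝔫) t = algebraMap B (ssl_locSub F0 𝔫) r' :=
      Subtype.ext hrt
    have h2 : p ∣ r * algebraMap B (ssl_locSub F0 𝔫) t := by rw [h1]; exact hpP r' hr'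
    exact (hp.dvd_or_dvd h2).resolve_right
      (fun h => hp.not_isUnit (isUnit_of_dvd_unit h (ssl_loc_isUnit 𝔫 ht)))
  have ha'P : a' ∉ P := key a a' s1 hs1 ha' ha
  have hs'P : s' ∉ P := key s s' s2 hs2 hs' hs
  refine ⟨s' * s1, a' * s2, fun h => (hP.mem_or_mem h).elim hs'P (fun h' => hs1 (hP𝔫 h')),
    fun h => (hP.mem_or_mem h).elim ha'P (fun h' => hs2 (hP𝔫 h')), ?_⟩
  have hes' : e₀ * (s : F0) = (a : F0) := hes
  show ((s' : F0) * (s1 : F0)) * e₀ = (a' : F0) * (s2 : F0)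
  rw [← ha', ← hs', ← hes']
  ring

end Chart

/-! ### the two kinds of points -/

section Points

variable {A0 : Type*} [CommRing A0] {F0 : Type v} [Field F0] [Algebra A0 F0]
variable {B : Subalgebra A0 F0} [IsFractionRing B F0] [IsNoetherianRing B] [IsIntegrallyClosed B]
variable (𝔫 : Ideal B) [h𝔫 : 𝔫.IsPrime] {π : A0}

include h𝔫 in
/-- **smooth point**: `B_𝔫` is factorial. -/
theorem tori_sfd_ufd_of_smooth (hϖ0 : algebraMap A0 F0 π ≠ 0) (hπ𝔫 : algebraMap A0 B π ∈ 𝔫)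
    (hsm : ss_SmoothAt π B 𝔫) : UniqueFactorizationMonoid (ssl_locSub F0 𝔫) := by
  haveI := ssl_loc_isNoetherianRing (F0 := F0) 𝔫
  haveI := ssl_loc_isLocalRing (F0 := F0) 𝔫
  obtain ⟨⟨t, ht⟩, hdom⟩ := hsm
  exact fc_ufd (ssl_loc_prime_of_dom 𝔫 hϖ0 hπ𝔫 hdom) (ssl_loc_max_of_genBy 𝔫 ht)

include h𝔫 in
/-- **smooth point**: the vertical prime through `𝔫` is generated by `ϖ` in `B_𝔫`. -/
theorem tori_sfd_ptData_of_smooth (hϖ0 : algebraMap A0 F0 π ≠ 0) (hπ𝔫 : algebraMap A0 B π ∈ 𝔫)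
    (hsm : ss_SmoothAt π B 𝔫) (P P' : Ideal B) [hP : P.IsPrime]
    (hrad : Ideal.span {algebraMap A0 B π} = P ⊓ P') (hP'P : ¬ P' ≤ P) (hP𝔫 : P ≤ 𝔫) :
    tori_sfd_PtData 𝔫 π P := by
  have hprime := ssl_loc_prime_of_dom 𝔫 hϖ0 hπ𝔫 hsm.2
  refine ⟨_, hprime, dvd_rfl, fun b hb => ?_⟩
  obtain ⟨d, hd, hdP⟩ := SetLike.not_le_iff_exists.1 hP'P
  have hbd : b * d ∈ Ideal.span {algebraMap A0 B π} := by
    rw [hrad]
    exact ⟨P.mul_mem_right _ hb, P'.mul_mem_left _ hd⟩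
  obtain ⟨c, hc⟩ := Ideal.mem_span_singleton.1 hbd
  have h1 : algebraMap B (ssl_locSub F0 𝔫) (algebraMap A0 B π) ∣
      algebraMap B (ssl_locSub F0 𝔫) b * algebraMap B (ssl_locSub F0 𝔫) d := by
    rw [← map_mul, hc, map_mul]
    exact dvd_mul_right _ _
  refine (hprime.dvd_or_dvd h1).resolve_right fun h => ?_
  -- `ϖ ∣ d` in `B_𝔫` is impossible
  obtain ⟨r, hr⟩ := h
  obtain ⟨a, s, hs, hrs⟩ := (ssl_mem_loc 𝔫).1 r.2
  have hds : d * s = algebraMap A0 B π * a := by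
    apply Subtype.ext
    have h2 : (d : F0) = algebraMap A0 F0 π * (r : F0) :=
      congrArg (fun t : ssl_locSub F0 𝔫 => (t : F0)) hr
    show (d : F0) * (s : F0) = algebraMap A0 F0 π * (a : F0)
    rw [h2, mul_assoc, hrs]
  have hmem : d * s ∈ P := by
    rw [hds]
    refine P.mul_mem_right _ ?_
    have : algebraMap A0 B π ∈ P ⊓ P' := by rw [← hrad]; exact Ideal.subset_span rfl
    exact this.1
  exact (hP.mem_or_mem hmem).elim hdP (fun h' => hs (hP𝔫 h'))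

/-- **the data of a regular node** of the chart `B` at `𝔫 ⊇ P1 + P2`, in fraction form: `u`
generates `P2 B_𝔫`, `v` generates `P1 B_𝔫`, and `𝔫 B_𝔫 = (ϖ, u, v)` (the conclusion shape of the
thickness-one lemmas `ssm_nht_thick_nf` / `ssm_nlb_thick_nf` + the generation clause of
`ss_NodeAt`). -/
def tori_sfd_NodeData (π : A0) (P1 P2 : Ideal B) : Prop :=
  ∃ u v : F0,
    (∃ s t : B, s ∉ 𝔫 ∧ t ∈ P2 ∧ (s : F0) * u = t) ∧
    (∃ s t : B, s ∉ 𝔫 ∧ t ∈ P1 ∧ (s : F0) * v = t) ∧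
    (∀ z ∈ P2, ∃ s c : B, s ∉ 𝔫 ∧ (s : F0) * (z : F0) = u * c) ∧
    (∀ z ∈ P1, ∃ s c : B, s ∉ 𝔫 ∧ (s : F0) * (z : F0) = v * c) ∧
    (∀ z ∈ 𝔫, ∃ s c1 c2 c3 : B, s ∉ 𝔫 ∧
      (s : F0) * (z : F0) = algebraMap A0 F0 π * c1 + u * c2 + v * c3)

/-- an element `w ∈ F0` generating `P B_𝔫` (`P ≤ 𝔫` a nonzero prime) is a prime element of
`B_𝔫` dividing every element of `P`. -/
theorem tori_sfd_prime_of_gen (P : Ideal B) [hP : P.IsPrime] (hP𝔫 : P ≤ 𝔫) (hP0 : P ≠ ⊥)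
    {w : F0} {s t : B} (hs : s ∉ 𝔫) (ht : t ∈ P) (hw : (s : F0) * w = t)
    (hgen : ∀ z ∈ P, ∃ s c : B, s ∉ 𝔫 ∧ (s : F0) * (z : F0) = w * c) :
    Prime (⟨w, ssl_loc_mem_of 𝔫 hs hw⟩ : ssl_locSub F0 𝔫) ∧
      ∀ b ∈ P, (⟨w, ssl_loc_mem_of 𝔫 hs hw⟩ : ssl_locSub F0 𝔫) ∣
        algebraMap B (ssl_locSub F0 𝔫) b := by
  set wR : ssl_locSub F0 𝔫 := ⟨w, ssl_loc_mem_of 𝔫 hs hw⟩ with hwR
  have hdvd : ∀ b ∈ P, wR ∣ algebraMap B (ssl_locSub F0 𝔫) b := by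
    intro b hb
    obtain ⟨s', c, hs', hsc⟩ := hgen b hb
    have h1 : algebraMap B (ssl_locSub F0 𝔫) s' * algebraMap B (ssl_locSub F0 𝔫) b =
        wR * algebraMap B (ssl_locSub F0 𝔫) c := Subtype.ext hsc
    have h2 : wR ∣ algebraMap B (ssl_locSub F0 𝔫) s' * algebraMap B (ssl_locSub F0 𝔫) b :=
      ⟨_, h1⟩
    exact ((ssl_loc_isUnit 𝔫 hs').dvd_mul_left).1 h2
  have hmap : Ideal.map (algebraMap B (ssl_locSub F0 𝔫)) P = Ideal.span {wR} := by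
    apply le_antisymm
    · rw [Ideal.map_le_iff_le_comap]
      intro z hz
      rw [Ideal.mem_comap, Ideal.mem_span_singleton]
      exact hdvd z hz
    · rw [Ideal.span_le, Set.singleton_subset_iff]
      have h1 : algebraMap B (ssl_locSub F0 𝔫) s * wR = algebraMap B (ssl_locSub F0 𝔫) t :=
        Subtype.ext hw
      have h2 : algebraMap B (ssl_locSub F0 𝔫) s * wR ∈
          Ideal.map (algebraMap B (ssl_locSub F0 𝔫)) P := by
        rw [h1]; exact Ideal.mem_map_of_mem _ ht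
      exact (Ideal.unit_mul_mem_iff_mem _ (ssl_loc_isUnit 𝔫 hs)).1 h2
  have hprimeI : (Ideal.map (algebraMap B (ssl_locSub F0 𝔫)) P).IsPrime :=
    IsLocalization.isPrime_of_isPrime_disjoint 𝔫.primeCompl (ssl_locSub F0 𝔫) P hP
      (Set.disjoint_left.2 fun x hx hxP => hx (hP𝔫 hxP))
  have hw0 : wR ≠ 0 := by
    intro h0
    apply hP0
    rw [eq_bot_iff]
    intro b hb
    have h1 := hdvd b hb
    rw [h0, zero_dvd_iff] at h1
    have h2 : (b : F0) = 0 := congrArg (fun t : ssl_locSub F0 𝔫 => (t : F0)) h1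
    exact (Submodule.mem_bot _).2 (Subtype.ext h2)
  rw [hmap] at hprimeI
  exact ⟨(Ideal.span_singleton_prime hw0).1 hprimeI, hdvd⟩

include h𝔫 in
/-- **regular node**: `B_𝔫` is factorial, with the vertical prime elements `v` (for `P1`) and `u`
(for `P2`). -/
theorem tori_sfd_of_node (hϖ0 : algebraMap A0 F0 π ≠ 0)
    (P1 P2 : Ideal B) [hP1 : P1.IsPrime] [hP2 : P2.IsPrime]
    (hπ1 : algebraMap A0 B π ∈ P1) (hπ2 : algebraMap A0 B π ∈ P2)
    (hP1𝔫 : P1 ≤ 𝔫) (hP2𝔫 : P2 ≤ 𝔫) (hnd : tori_sfd_NodeData 𝔫 π P1 P2) :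
    UniqueFactorizationMonoid (ssl_locSub F0 𝔫) ∧ tori_sfd_PtData 𝔫 π P1 ∧
      tori_sfd_PtData 𝔫 π P2 := by
  haveI := ssl_loc_isNoetherianRing (F0 := F0) 𝔫
  haveI := ssl_loc_isLocalRing (F0 := F0) 𝔫
  obtain ⟨u, v, ⟨su, tu, hsu, htu, hu⟩, ⟨sv, tv, hsv, htv, hv⟩, hgen2, hgen1, hgen⟩ := hnd
  have hϖB : algebraMap A0 B π ≠ 0 := by
    intro h0
    apply hϖ0
    have := congrArg (fun t : B => (t : F0)) h0
    simpa using this
  have hP10 : P1 ≠ ⊥ := fun h => hϖB ((Submodule.mem_bot _).1 (h ▸ hπ1))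
  have hP20 : P2 ≠ ⊥ := fun h => hϖB ((Submodule.mem_bot _).1 (h ▸ hπ2))
  obtain ⟨hup, hud⟩ := tori_sfd_prime_of_gen 𝔫 P2 hP2𝔫 hP20 hsu htu hu hgen2
  obtain ⟨hvp, hvd⟩ := tori_sfd_prime_of_gen 𝔫 P1 hP1𝔫 hP10 hsv htv hv hgen1
  set uR : ssl_locSub F0 𝔫 := ⟨u, ssl_loc_mem_of 𝔫 hsu hu⟩ with huR
  set vR : ssl_locSub F0 𝔫 := ⟨v, ssl_loc_mem_of 𝔫 hsv hv⟩ with hvR
  refine ⟨?_, ⟨vR, hvp, hvd _ hπ1, hvd⟩, ⟨uR, hup, hud _ hπ2, hud⟩⟩
  -- `𝔪 = (u, v)`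
  have hmax : maximalIdeal (ssl_locSub F0 𝔫) = Ideal.span {uR, vR} := by
    rw [← IsLocalization.AtPrime.map_eq_maximalIdeal 𝔫 (ssl_locSub F0 𝔫)]
    apply le_antisymm
    · rw [Ideal.map_le_iff_le_comap]
      intro z hz
      obtain ⟨s, c1, c2, c3, hs, hsz⟩ := hgen z hz
      obtain ⟨r, hr⟩ := hvd _ hπ1
      have h1 : algebraMap B (ssl_locSub F0 𝔫) s * algebraMap B (ssl_locSub F0 𝔫) z =
          vR * r * algebraMap B (ssl_locSub F0 𝔫) c1 +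
            uR * algebraMap B (ssl_locSub F0 𝔫) c2 + vR * algebraMap B (ssl_locSub F0 𝔫) c3 := by
        rw [← hr]
        exact Subtype.ext hsz
      have h2 : algebraMap B (ssl_locSub F0 𝔫) s * algebraMap B (ssl_locSub F0 𝔫) z ∈
          Ideal.span {uR, vR} := by
        rw [h1]
        have hu' : uR ∈ Ideal.span {uR, vR} := Ideal.subset_span (by simp)
        have hv' : vR ∈ Ideal.span {uR, vR} := Ideal.subset_span (by simp)
        refine Ideal.add_mem _ (Ideal.add_mem _ ?_ (Ideal.mul_mem_right _ _ hu'))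
          (Ideal.mul_mem_right _ _ hv')
        rw [mul_assoc]
        exact Ideal.mul_mem_right _ _ hv'
      rw [Ideal.mem_comap]
      exact (Ideal.unit_mul_mem_iff_mem _ (ssl_loc_isUnit 𝔫 hs)).1 h2
    · rw [Ideal.span_le]
      rintro y (rfl | rfl)
      · exact ssl_loc_mem_map_of 𝔫 hsu (hP2𝔫 htu) hu
      · exact ssl_loc_mem_map_of 𝔫 hsv (hP1𝔫 htv) hv
  exact fc_ufd hup hmax

end Points

end Fermat.Agent.S35
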