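/-
Project S35, cell **[SFD]** "special-fibre divisor" (helper19), COMPOSITE-VALUATION form.
Prefix `tori_sfd_`.

`A0` a discrete valuation ring with uniformiser `π`, `L = Frac A0`, `F0 / L` a function field with
coordinate `x`, `V1, V2` the two Gauss valuation rings of `F0` (`H : ssm_tp_Hyp`), charts
`B_x = fc_chart A0 {x}`, `B_{x⁻¹} = fc_chart A0 {x⁻¹}`.

`𝒱 ≤ V1` a valuation subring of `F0` containing `A0` whose residue field is algebraic over `A0 / π`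
(the composite of `V1` with a place `v` of its residue field `κ(V1)`, the function field of the
first component of the special fibre: `𝒱 = {z ∈ V1 | red₁ z ∈ O_v}`).

**(H-DIV)** `tori_sfd_hdiv` : if `g ∈ F0ˣ` is a unit at `V1` and `V2` and all its orders at the places
of `F0 / L` are divisible by `m`, then `g = ω · e^m` with `ω ∈ 𝒱ˣ` and `e ∈ V1ˣ`; i.e.
`ord_v (red₁ g) = m · ord_v (red₁ e)` is divisible by `m`.

The only input on the model is the factoriality of the local rings at the closed points of the first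
component (`tori_sfd_Pt`; proved in `SFDChart.lean` for smooth points and regular nodes).
-/
import Mathlib
import Fermat.Agent.S35.Toric.SFDChart
import Fermat.Agent.S35.Toric.FunField

set_option autoImplicit false
set_option linter.unusedSectionVars false
set_option linter.style.haveILetI false

namespace Fermat.Agent.S35

open Fermat.Agent.SS Fermat.Agent.JT3 IsLocalRing AlgebraicCurve Polynomial

universe v

section Centre

variable {A0 : Type*} [CommRing A0] {F0 : Type v} [Field F0] [Algebra A0 F0]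
  (𝒱 : ValuationSubring F0)

/-- a unit `b` of `𝒱` which is algebraic modulo `𝔪(𝒱)` over a "field-like" base is invertible
modulo `𝔪(𝒱)` by a polynomial in `b`. -/
theorem tori_sfd_exists_inv (hA : ∀ a : A0, algebraMap A0 F0 a ∈ 𝒱)
    (hk : ∀ a : A0, algebraMap A0 F0 a ∈ 𝒱.nonunits ∨ IsUnit a) :
    ∀ (n : ℕ) (p : A0[X]), p.Monic → p.natDegree = n → ∀ b : F0, b ∈ 𝒱 → b ∉ 𝒱.nonunits →
      aeval b p ∈ 𝒱.nonunits → ∃ r : A0[X], b * aeval b r - 1 ∈ 𝒱.nonunits := by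
  intro n
  induction n with
  | zero =>
    intro p hp hn b _ _ hpb
    rw [Polynomial.eq_one_of_monic_natDegree_zero hp hn, map_one] at hpb
    exact absurd hpb (ssm_tp_one_not_mem_nonunits 𝒱)
  | succ n ih =>
    intro p hp hn b hb hbu hpb
    have hdec : aeval b p = aeval b p.divX * b + algebraMap A0 F0 (p.coeff 0) := by
      conv_lhs => rw [← Polynomial.divX_mul_X_add p]
      rw [map_add, map_mul, aeval_X, aeval_C]
    have hq : p.divX.Monic := by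
      have hd : p.divX.natDegree ≤ n := by
        rw [Polynomial.natDegree_divX_eq_natDegree_tsub_one, hn]; simp
      refine Polynomial.monic_of_natDegree_le_of_coeff_eq_one n hd ?_
      rw [Polynomial.coeff_divX, ← hn]
      exact hp.coeff_natDegree
    have hqn : p.divX.natDegree = n := by
      rw [Polynomial.natDegree_divX_eq_natDegree_tsub_one, hn]; simp
    have hqb : aeval b p.divX ∈ 𝒱 := by
      rw [Polynomial.aeval_eq_sum_range]
      refine Subring.sum_mem 𝒱.toSubring fun i _ => ?_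
      rw [Algebra.smul_def]
      exact 𝒱.mul_mem _ _ (hA _) (𝒱.toSubring.pow_mem hb i)
    rcases hk (p.coeff 0) with h0 | h0
    · -- the constant coefficient is in `𝔪(𝒱)`
      have h1 : aeval b p.divX * b ∈ 𝒱.nonunits := by
        have : aeval b p.divX * b = aeval b p + -(algebraMap A0 F0 (p.coeff 0)) := by
          rw [hdec]; ring
        rw [this]
        exact ssm_tp_nonunits_add 𝒱 hpb (ssm_tp_nonunits_neg 𝒱 h0)
      have h2 : aeval b p.divX ∈ 𝒱.nonunits := by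
        by_contra hcon
        exact ssm_tp_mul_not_mem 𝒱 hcon hbu h1
      exact ih p.divX hq hqn b hb hbu h2
    · -- the constant coefficient is a unit of `A0`
      obtain ⟨u, hu⟩ := h0
      refine ⟨C (-(↑u⁻¹ : A0)) * p.divX, ?_⟩
      have huu : algebraMap A0 F0 (↑u⁻¹ : A0) * algebraMap A0 F0 (p.coeff 0) = 1 := by
        rw [← map_mul, ← hu, Units.inv_mul, map_one]
      have : b * aeval b (C (-(↑u⁻¹ : A0)) * p.divX) - 1 =
          aeval b p * (-(algebraMap A0 F0 (↑u⁻¹ : A0))) := by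
        rw [map_mul, aeval_C, map_neg, hdec]
        linear_combination huu
      rw [this]
      exact ssm_tp_nonunits_mul 𝒱 hpb (𝒱.neg_mem _ (hA _))

variable {B : Subalgebra A0 F0}

/-- **the centre of `𝒱` on a chart `B ⊆ 𝒱` is a maximal ideal** when the residue field of `𝒱` is
algebraic over the residue field of `A0`. -/
theorem tori_sfd_centre_isMaximal (hB : ∀ b ∈ B, b ∈ 𝒱)
    (hk : ∀ a : A0, algebraMap A0 F0 a ∈ 𝒱.nonunits ∨ IsUnit a)
    (halg : ∀ z ∈ 𝒱, ∃ p : A0[X], p.Monic ∧ aeval z p ∈ 𝒱.nonunits) :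
    (ssm_tp_P B 𝒱).IsMaximal := by
  have hA : ∀ a : A0, algebraMap A0 F0 a ∈ 𝒱 := fun a => hB _ (B.algebraMap_mem a)
  rw [Ideal.isMaximal_iff]
  refine ⟨fun h1 => ?_, fun J b hJ hb hbJ => ?_⟩
  · rw [ssm_tp_mem_P hB, OneMemClass.coe_one] at h1
    exact ssm_tp_one_not_mem_nonunits 𝒱 h1
  · rw [ssm_tp_mem_P hB] at hb
    obtain ⟨p, hp, hpb⟩ := halg (b : F0) (hB _ b.2)
    obtain ⟨r, hr⟩ := tori_sfd_exists_inv 𝒱 hA hk _ p hp rfl (b : F0) (hB _ b.2) hb hpb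
    have hmem : b * aeval b r - 1 ∈ ssm_tp_P B 𝒱 := by
      rw [ssm_tp_mem_P hB]
      have : ((b * aeval b r - 1 : B) : F0) = (b : F0) * aeval (b : F0) r - 1 := by
        rw [AddSubgroupClass.coe_sub, MulMemClass.coe_mul, OneMemClass.coe_one,
          Subalgebra.aeval_coe]
      rw [this]
      exact hr
    have h1 : (1 : B) = b * aeval b r - (b * aeval b r - 1) := by ring
    rw [h1]
    exact J.sub_mem (J.mul_mem_right _ hbJ) (hJ hmem)

end Centre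

section HDiv

open IntermediateField

variable {A0 L : Type*} {F0 : Type v} [CommRing A0] [IsDomain A0] [IsDiscreteValuationRing A0]
  [Field L] [CharZero L] [Field F0] [Algebra A0 L] [IsFractionRing A0 L] [Algebra L F0]
  [Algebra A0 F0] [IsScalarTower A0 L F0]

/-- **the point hypothesis of [SFD]** at a maximal ideal `𝔫 ⊇ P` of a chart `B`: the local ring
`B_𝔫` is factorial and `P B_𝔫` is generated by a prime element dividing `ϖ`
(`tori_sfd_pt_of_smooth` at a smooth point, `tori_sfd_pt_of_node` at a regular node).  The instances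
are bundled (they are propositions), so that the statement makes sense without any instance in
scope. -/
def tori_sfd_Pt (π : A0) {B : Subalgebra A0 F0} (P 𝔫 : Ideal B) : Prop :=
  ∃ (_ : IsFractionRing B F0) (_ : 𝔫.IsPrime),
    UniqueFactorizationMonoid (ssl_locSub F0 𝔫) ∧ tori_sfd_PtData 𝔫 π P

/-- the point hypothesis at a **smooth point**. -/
theorem tori_sfd_pt_of_smooth {π : A0} {B : Subalgebra A0 F0} [hfr : IsFractionRing B F0]
    [IsNoetherianRing B] [IsIntegrallyClosed B] (𝔫 : Ideal B) [h𝔫 : 𝔫.IsPrime]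
    (hϖ0 : algebraMap A0 F0 π ≠ 0) (hπ𝔫 : algebraMap A0 B π ∈ 𝔫) (hsm : ss_SmoothAt π B 𝔫)
    (P P' : Ideal B) [hP : P.IsPrime]
    (hrad : Ideal.span {algebraMap A0 B π} = P ⊓ P') (hP'P : ¬ P' ≤ P) (hP𝔫 : P ≤ 𝔫) :
    tori_sfd_Pt π P 𝔫 :=
  ⟨hfr, h𝔫, tori_sfd_ufd_of_smooth 𝔫 hϖ0 hπ𝔫 hsm,
    tori_sfd_ptData_of_smooth 𝔫 hϖ0 hπ𝔫 hsm P P' hrad hP'P hP𝔫⟩

/-- the point hypothesis at a **regular node**, for both branches. -/
theorem tori_sfd_pt_of_node {π : A0} {B : Subalgebra A0 F0} [hfr : IsFractionRing B F0]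
    [IsNoetherianRing B] [IsIntegrallyClosed B] (𝔫 : Ideal B) [h𝔫 : 𝔫.IsPrime]
    (hϖ0 : algebraMap A0 F0 π ≠ 0) (P1 P2 : Ideal B) [hP1 : P1.IsPrime] [hP2 : P2.IsPrime]
    (hπ1 : algebraMap A0 B π ∈ P1) (hπ2 : algebraMap A0 B π ∈ P2)
    (hP1𝔫 : P1 ≤ 𝔫) (hP2𝔫 : P2 ≤ 𝔫) (hnd : tori_sfd_NodeData 𝔫 π P1 P2) :
    tori_sfd_Pt π P1 𝔫 ∧ tori_sfd_Pt π P2 𝔫 := by
  obtain ⟨hufd, h1, h2⟩ := tori_sfd_of_node 𝔫 hϖ0 P1 P2 hπ1 hπ2 hP1𝔫 hP2𝔫 hnd
  exact ⟨⟨hfr, h𝔫, hufd, h1⟩, ⟨hfr, h𝔫, hufd, h2⟩⟩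

/-- **(H-DIV) on one chart** `B_y` containing the centre of `𝒱`. -/
theorem tori_sfd_hdiv_chart {π : A0} (hπ : Irreducible π) {y : F0} (hy : Transcendental L y)
    [FiniteDimensional L⟮y⟯ F0] {V1 V2 : ValuationSubring F0}
    (H : ssm_tp_Hyp (algebraMap A0 (Algebra.adjoin A0 ({y} : Set F0)) π) V1 V2)
    (𝒱 : ValuationSubring F0) (h𝒱 : 𝒱 ≤ V1) (hA : ∀ a : A0, algebraMap A0 F0 a ∈ 𝒱)
    (halg : ∀ z ∈ 𝒱, ∃ p : A0[X], p.Monic ∧ aeval z p ∈ 𝒱.nonunits) (hy𝒱 : y ∈ 𝒱)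
    (hpt : ∀ 𝔫 : Ideal (fc_chart A0 ({y} : Set F0)), 𝔫.IsMaximal →
      ssm_tp_P (fc_chart A0 ({y} : Set F0)) V1 ≤ 𝔫 →
      (∀ b : fc_chart A0 ({y} : Set F0), b ∈ 𝔫 ↔ (b : F0) ∈ 𝒱.nonunits) →
      tori_sfd_Pt π (ssm_tp_P (fc_chart A0 ({y} : Set F0)) V1) 𝔫)
    (m : ℕ) {g : F0} (hg : g ≠ 0) (hord : ∀ P : Place L F0, (m : ℤ) ∣ P.ord g)
    (hg1 : g ∈ V1 ∧ g ∉ V1.nonunits) (hg2 : g ∈ V2 ∧ g ∉ V2.nonunits) :
    ∃ e ω : F0, g = ω * e ^ m ∧ (e ∈ V1 ∧ e ∉ V1.nonunits) ∧ (ω ∈ 𝒱 ∧ ω ∉ 𝒱.nonunits) := by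
  have hyA : Transcendental A0 y := fc_ff_transcendental (L := L) hy
  haveI : IsIntegrallyClosed (Algebra.adjoin A0 ({y} : Set F0)) := fc_ff_isIntegrallyClosed hyA
  haveI : FaithfulSMul (Algebra.adjoin A0 ({y} : Set F0)) F0 :=
    (faithfulSMul_iff_algebraMap_injective _ _).2 Subtype.val_injective
  have hC := ssm_tp_ff_chart (L := L) hπ hy
  haveI : Algebra.IsAlgebraic (Algebra.adjoin A0 ({y} : Set F0)) F0 := fc_ff_isAlgebraic (L := L) y
  haveI : IsNoetherianRing (fc_chart A0 ({y} : Set F0)) := by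
    have := fc_chart_isNoetherianRing (A0 := A0) (F0 := F0) {y}
      (by rw [Finset.coe_singleton]; exact fc_ff_finite (L := L) hy)
    rwa [Finset.coe_singleton] at this
  haveI : IsIntegrallyClosed (fc_chart A0 ({y} : Set F0)) := by
    refine (isIntegrallyClosed_iff F0).2 fun {z} hz => ?_
    have hz' : IsIntegral (integralClosure (Algebra.adjoin A0 ({y} : Set F0)) F0) z := hz
    have h1 : IsIntegral (Algebra.adjoin A0 ({y} : Set F0)) z :=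
      isIntegral_trans (R := Algebra.adjoin A0 ({y} : Set F0))
        (A := integralClosure (Algebra.adjoin A0 ({y} : Set F0)) F0) z hz'
    exact ⟨⟨z, h1⟩, rfl⟩
  have hϖ0 : algebraMap A0 F0 π ≠ 0 := by
    have := H.algebraMap_ne_zero
    exact this
  -- the chart lies in `𝒱`
  have hadj : ∀ r : Algebra.adjoin A0 ({y} : Set F0),
      algebraMap (Algebra.adjoin A0 ({y} : Set F0)) F0 r ∈ 𝒱 := by
    rintro ⟨r, hr⟩
    show r ∈ 𝒱
    induction hr using Algebra.adjoin_induction with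
    | mem s hs => rw [Set.mem_singleton_iff] at hs; rw [hs]; exact hy𝒱
    | algebraMap a => exact hA a
    | add a b _ _ ha hb => exact 𝒱.add_mem _ _ ha hb
    | mul a b _ _ ha hb => exact 𝒱.mul_mem _ _ ha hb
  have hB : ∀ b ∈ fc_chart A0 ({y} : Set F0), b ∈ 𝒱 := fun b hb =>
    ssm_tp_mem_of_isIntegral 𝒱 hadj (fc_mem_chart.1 hb)
  -- `π ∈ 𝔪(𝒱)` and the elements of `A0`
  have hnu : V1.nonunits ≤ 𝒱.nonunits := ValuationSubring.nonunits_le_nonunits.2 h𝒱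
  have hπ𝒱 : algebraMap A0 F0 π ∈ 𝒱.nonunits := hnu H.over1.pi_mem
  have hk : ∀ a : A0, algebraMap A0 F0 a ∈ 𝒱.nonunits ∨ IsUnit a := by
    intro a
    by_cases ha : a ∈ maximalIdeal A0
    · left
      rw [hπ.maximalIdeal_eq, Ideal.mem_span_singleton] at ha
      obtain ⟨c, rfl⟩ := ha
      rw [map_mul]
      exact ssm_tp_nonunits_mul 𝒱 hπ𝒱 (hA c)
    · right
      exact (IsLocalRing.notMem_maximalIdeal.1 ha)
  -- the centre
  set 𝔫 : Ideal (fc_chart A0 ({y} : Set F0)) := ssm_tp_P (fc_chart A0 ({y} : Set F0)) 𝒱 with h𝔫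
  have h𝔫max : 𝔫.IsMaximal := tori_sfd_centre_isMaximal 𝒱 hB hk halg
  have h𝔫mem : ∀ b : fc_chart A0 ({y} : Set F0), b ∈ 𝔫 ↔ (b : F0) ∈ 𝒱.nonunits :=
    fun b => ssm_tp_mem_P hB
  have hP1𝔫 : ssm_tp_P (fc_chart A0 ({y} : Set F0)) V1 ≤ 𝔫 := by
    intro b hb
    rw [h𝔫mem]
    exact hnu ((H.mem_P1 hC).1 hb)
  obtain ⟨_, h𝔫p, hufd, hptd⟩ := hpt 𝔫 h𝔫max hP1𝔫 h𝔫mem
  haveI := h𝔫p
  haveI : UniqueFactorizationMonoid (ssl_locSub F0 𝔫) := hufd
  haveI := H.P1_isPrime hC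
  haveI := H.P2_isPrime hC
  obtain ⟨e₀, ω, he₀, hgω, ⟨s, t, hs, ht, hst⟩, hev⟩ :=
    tori_sfd_chart (K := L) 𝔫 (ssm_tp_P (fc_chart A0 ({y} : Set F0)) V1)
      (ssm_tp_P (fc_chart A0 ({y} : Set F0)) V2) (H.P_inf hC _ rfl) (H.P_not_le12 hC)
      (H.P_not_le21 hC) hπ hϖ0 m hg hord ((tori_tp_unitV1_iff H hC).1 hg1)
      ((tori_tp_unitV2_iff H hC).1 hg2)
  refine ⟨e₀, ω, hgω, (tori_tp_unitV1_iff H hC).2 (tori_sfd_unitV_of 𝔫 hP1𝔫 hptd hev), ?_⟩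
  -- `ω = t / s` with `s, t ∈ B ∖ 𝔫`
  have hs' : (s : F0) ∉ 𝒱.nonunits := fun h => hs ((h𝔫mem s).2 h)
  have ht' : (t : F0) ∉ 𝒱.nonunits := fun h => ht ((h𝔫mem t).2 h)
  have hs0 : (s : F0) ≠ 0 := ssm_tp_ne_zero 𝒱 hs'
  have hω : ω = (t : F0) * (s : F0)⁻¹ := by
    rw [← hst]; field_simp
  rw [hω]
  refine ⟨𝒱.mul_mem _ _ (hB _ t.2) (ssm_tp_inv_mem 𝒱 hs'), ?_⟩
  refine ssm_tp_mul_not_mem 𝒱 ht' fun h => ?_
  have := ssm_tp_nonunits_mul 𝒱 h (hB _ s.2)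
  rw [inv_mul_cancel₀ hs0] at this
  exact ssm_tp_one_not_mem_nonunits 𝒱 this

/-- **(H-DIV)**: the special-fibre divisor of a function which is a unit at both Gauss valuations and
whose horizontal orders are divisible by `m` is divisible by `m`, in composite-valuation form.  The
centre of `𝒱` lies on the `x`-chart if `x ∈ 𝒱` and on the `x⁻¹`-chart (at a point where `x⁻¹`
vanishes) otherwise. -/
theorem tori_sfd_hdiv {π : A0} (hπ : Irreducible π) {x : F0} (hx : Transcendental L x)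
    [FiniteDimensional L⟮x⟯ F0] {V1 V2 : ValuationSubring F0}
    (H : ssm_tp_Hyp (algebraMap A0 (Algebra.adjoin A0 ({x} : Set F0)) π) V1 V2)
    (𝒱 : ValuationSubring F0) (h𝒱 : 𝒱 ≤ V1) (hA : ∀ a : A0, algebraMap A0 F0 a ∈ 𝒱)
    (halg : ∀ z ∈ 𝒱, ∃ p : A0[X], p.Monic ∧ aeval z p ∈ 𝒱.nonunits)
    (hpt1 : ∀ 𝔫 : Ideal (fc_chart A0 ({x} : Set F0)), 𝔫.IsMaximal →
      ssm_tp_P (fc_chart A0 ({x} : Set F0)) V1 ≤ 𝔫 →
      tori_sfd_Pt π (ssm_tp_P (fc_chart A0 ({x} : Set F0)) V1) 𝔫)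
    (hpt2 : ∀ 𝔫 : Ideal (fc_chart A0 ({x⁻¹} : Set F0)), 𝔫.IsMaximal →
      ssm_tp_P (fc_chart A0 ({x⁻¹} : Set F0)) V1 ≤ 𝔫 →
      (⟨x⁻¹, fc_x_mem_chart x⁻¹⟩ : fc_chart A0 ({x⁻¹} : Set F0)) ∈ 𝔫 →
      tori_sfd_Pt π (ssm_tp_P (fc_chart A0 ({x⁻¹} : Set F0)) V1) 𝔫)
    (m : ℕ) {g : F0} (hg : g ≠ 0) (hord : ∀ P : Place L F0, (m : ℤ) ∣ P.ord g)
    (hg1 : g ∈ V1 ∧ g ∉ V1.nonunits) (hg2 : g ∈ V2 ∧ g ∉ V2.nonunits) :
    ∃ e ω : F0, g = ω * e ^ m ∧ (e ∈ V1 ∧ e ∉ V1.nonunits) ∧ (ω ∈ 𝒱 ∧ ω ∉ 𝒱.nonunits) := by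
  by_cases hx𝒱 : x ∈ 𝒱
  · exact tori_sfd_hdiv_chart hπ hx H 𝒱 h𝒱 hA halg hx𝒱
      (fun 𝔫 h𝔫 hP _ => hpt1 𝔫 h𝔫 hP) m hg hord hg1 hg2
  · have hxi : Transcendental L x⁻¹ := fun h => hx (IsAlgebraic.inv_iff.mp h)
    haveI hfd2 : FiniteDimensional L⟮x⁻¹⟯ F0 := by
      rw [rt_adjoin_inv]; infer_instance
    have hxinv : x⁻¹ ∈ 𝒱.nonunits := by
      rw [ValuationSubring.mem_nonunits_iff_or]
      right
      rw [inv_inv]; exact hx𝒱
    exact tori_sfd_hdiv_chart hπ hxi (ssm_tp_ff_hyp_inv (L := L) hπ hx H) 𝒱 h𝒱 hA halg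
      (ValuationSubring.nonunits_subset hxinv)
      (fun 𝔫 h𝔫 hP hmem => hpt2 𝔫 h𝔫 hP ((hmem _).2 hxinv)) m hg hord hg1 hg2

end HDiv

end Fermat.Agent.S35
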