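/-
Project S35, cell **[SFD-INST]** (helper19), tower-independent part.  Prefix `tori_sfdi_`.

`tori_sfdi_nodeData_of_cross` : at a maximal crossing point `𝔫 ⊇ P1 + P2` of the chart `B`, the
crossing package `ssm_nx_Cross` (generation of `𝔫 B_𝔫` by `ϖ` and the two GLOBAL equations `U ∈ P2`,
`V ∈ P1`) together with the thickness-one clause (`ssm_nx_thick`: `P2 B_𝔫 = (u)`, `P1 B_𝔫 = (v)`)
gives the regular-node data `tori_sfd_NodeData 𝔫 π P1 P2` of [SFD].  No Frobenius is involved.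
-/
import Mathlib
import Fermat.Agent.SS.Model.NodeCross
import Fermat.Agent.S35.Toric.SFD

set_option autoImplicit false
set_option linter.unusedSectionVars false
set_option linter.unusedVariables false
set_option linter.style.haveILetI false

namespace Fermat.Agent.S35

open Fermat.Agent.SS Fermat.Agent.JT3 Polynomial IntermediateField

universe v

section Gen

variable {A0 : Type*} [CommRing A0] {K E : Type*} [Field K] [Field E] [Algebra K E]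
  [Algebra A0 K] [Algebra A0 E]
variable {B' : Subalgebra A0 K} {B : Subalgebra A0 E}

/-- **regular-node data from the crossing package and thickness one.** -/
theorem tori_sfdi_nodeData_of_cross {φ : B' →+* B} {π' : B'} {q₀ : ℕ} {P1 P2 : Ideal B}
    {lam' : B'} {lamq : B} {c : ℤ[X]}
    (C : ssm_nx_Cross B' B φ π' q₀ P1 P2 lam' lamq c) (π : A0)
    (hππ' : ((φ π' : B) : E) = algebraMap A0 E π)
    (𝔫 : Ideal B) (h𝔫 : 𝔫.IsMaximal) (h1 : P1 ≤ 𝔫) (h2 : P2 ≤ 𝔫)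
    (hthick : ∃ u v : E, u * v = (q₀ : E) ∧
      (∃ s t : B, s ∉ 𝔫 ∧ t ∈ P2 ∧ (s : E) * u = t) ∧
      (∃ s t : B, s ∉ 𝔫 ∧ t ∈ P1 ∧ (s : E) * v = t) ∧
      (∀ z ∈ P2, ∃ s c : B, s ∉ 𝔫 ∧ (s : E) * (z : E) = u * c) ∧
      (∀ z ∈ P1, ∃ s c : B, s ∉ 𝔫 ∧ (s : E) * (z : E) = v * c) ∧
      (∃ s t : B, s ∉ 𝔫 ∧ t ∉ P1 ∧ (s : E) * u = t) ∧
      (∃ s t : B, s ∉ 𝔫 ∧ t ∉ P2 ∧ (s : E) * v = t)) :
    tori_sfd_NodeData 𝔫 π P1 P2 := by
  haveI : 𝔫.IsPrime := h𝔫.isPrime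
  obtain ⟨u, v, -, hu, hv, hg2, hg1, -, -⟩ := hthick
  obtain ⟨-, -, -, -, hU2, hV1, -, -, hgen⟩ := C.cross 𝔫 h𝔫 h1 h2
  refine ⟨u, v, hu, hv, hg2, hg1, fun z hz => ?_⟩
  obtain ⟨s, hs, hsz⟩ := hgen z hz
  obtain ⟨a1, w, hw, hsz⟩ := Ideal.mem_span_insert.1 hsz
  obtain ⟨a2, a3, rfl⟩ := Ideal.mem_span_pair.1 hw
  obtain ⟨s2, c2, hs2, e2⟩ := hg2 _ hU2
  obtain ⟨s3, c3, hs3, e3⟩ := hg1 _ hV1
  refine ⟨s * s2 * s3, s2 * s3 * a1, a2 * s3 * c2, a3 * s2 * c3, ?_, ?_⟩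
  · intro hmem
    rcases (Ideal.IsPrime.mem_or_mem inferInstance hmem) with h | h
    · rcases (Ideal.IsPrime.mem_or_mem inferInstance h) with h | h
      · exact hs h
      · exact hs2 h
    · exact hs3 h
  · have hsz' := congrArg (fun t : B => (t : E)) hsz
    simp only [MulMemClass.coe_mul, AddMemClass.coe_add] at hsz'
    rw [hππ'] at hsz'
    simp only [MulMemClass.coe_mul]
    have key : ((s : E) * (s2 : E) * (s3 : E)) * (z : E) =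
        (s2 : E) * (s3 : E) * ((s : E) * (z : E)) := by ring
    rw [key, hsz']
    linear_combination ((a2 : E) * (s3 : E)) * e2 + ((a3 : E) * (s2 : E)) * e3

end Gen

section FunField

variable {A0 L : Type*} {F0 : Type v} [CommRing A0] [IsDomain A0] [IsDiscreteValuationRing A0]
  [Field L] [CharZero L] [Field F0] [Algebra A0 L] [IsFractionRing A0 L] [Algebra L F0]
  [Algebra A0 F0] [IsScalarTower A0 L F0]

/-- the three standing instances of a chart `B_y` of a function field. -/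
theorem tori_sfdi_chart_inst {y : F0} (hy : Transcendental L y) [FiniteDimensional L⟮y⟯ F0] :
    IsFractionRing (fc_chart A0 ({y} : Set F0)) F0 ∧
      IsNoetherianRing (fc_chart A0 ({y} : Set F0)) ∧
      IsIntegrallyClosed (fc_chart A0 ({y} : Set F0)) := by
  haveI : Algebra.IsAlgebraic (Algebra.adjoin A0 ({y} : Set F0)) F0 := fc_ff_isAlgebraic (L := L) y
  haveI hfr : IsFractionRing (fc_chart A0 ({y} : Set F0)) F0 := fc_chart_isFractionRing {y}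
  refine ⟨hfr, ?_, ?_⟩
  · have := fc_chart_isNoetherianRing (A0 := A0) (F0 := F0) {y}
      (by rw [Finset.coe_singleton]; exact fc_ff_finite (L := L) hy)
    rwa [Finset.coe_singleton] at this
  · refine (isIntegrallyClosed_iff F0).2 fun {z} hz => ?_
    have hz' : IsIntegral (integralClosure (Algebra.adjoin A0 ({y} : Set F0)) F0) z := hz
    have h1 : IsIntegral (Algebra.adjoin A0 ({y} : Set F0)) z :=
      isIntegral_trans (R := Algebra.adjoin A0 ({y} : Set F0))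
        (A := integralClosure (Algebra.adjoin A0 ({y} : Set F0)) F0) z hz'
    exact ⟨⟨z, h1⟩, rfl⟩

/-- **the point hypothesis of (H-DIV) at a closed point of the chart `B_y`**: smooth point, or
crossing point with regular-node data. -/
theorem tori_sfdi_pt_chart {π : A0} (hπ : Irreducible π) {y : F0} (hy : Transcendental L y)
    [FiniteDimensional L⟮y⟯ F0] {V1 V2 : ValuationSubring F0}
    (H : ssm_tp_Hyp (algebraMap A0 (Algebra.adjoin A0 ({y} : Set F0)) π) V1 V2)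
    (𝔫 : Ideal (fc_chart A0 ({y} : Set F0))) (h𝔫 : 𝔫.IsMaximal)
    (hpt : ss_SmoothAt π (fc_chart A0 ({y} : Set F0)) 𝔫 ∨
      (ssm_tp_P (fc_chart A0 ({y} : Set F0)) V1 ≤ 𝔫 ∧
        ssm_tp_P (fc_chart A0 ({y} : Set F0)) V2 ≤ 𝔫 ∧
        tori_sfd_NodeData 𝔫 π (ssm_tp_P (fc_chart A0 ({y} : Set F0)) V1)
          (ssm_tp_P (fc_chart A0 ({y} : Set F0)) V2))) :
    (ssm_tp_P (fc_chart A0 ({y} : Set F0)) V1 ≤ 𝔫 →
        tori_sfd_Pt π (ssm_tp_P (fc_chart A0 ({y} : Set F0)) V1) 𝔫) ∧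
      (ssm_tp_P (fc_chart A0 ({y} : Set F0)) V2 ≤ 𝔫 →
        tori_sfd_Pt π (ssm_tp_P (fc_chart A0 ({y} : Set F0)) V2) 𝔫) := by
  have hyA : Transcendental A0 y := fc_ff_transcendental (L := L) hy
  haveI : IsIntegrallyClosed (Algebra.adjoin A0 ({y} : Set F0)) := fc_ff_isIntegrallyClosed hyA
  haveI : FaithfulSMul (Algebra.adjoin A0 ({y} : Set F0)) F0 :=
    (faithfulSMul_iff_algebraMap_injective _ _).2 Subtype.val_injective
  have hC := ssm_tp_ff_chart (L := L) hπ hy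
  obtain ⟨i1, i2, i3⟩ := tori_sfdi_chart_inst (A0 := A0) (L := L) hy
  haveI := i1
  haveI := i2
  haveI := i3
  have hϖ0 : algebraMap A0 F0 π ≠ 0 := by
    have := H.algebraMap_ne_zero
    exact this
  haveI := H.P1_isPrime hC
  haveI := H.P2_isPrime hC
  haveI : 𝔫.IsPrime := h𝔫.isPrime
  have hrad := H.P_inf hC (algebraMap A0 (fc_chart A0 ({y} : Set F0)) π) rfl
  have h12 := H.P_not_le12 hC
  have h21 := H.P_not_le21 hC
  have hπ12 : algebraMap A0 (fc_chart A0 ({y} : Set F0)) π ∈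
      ssm_tp_P (fc_chart A0 ({y} : Set F0)) V1 ⊓ ssm_tp_P (fc_chart A0 ({y} : Set F0)) V2 :=
    hrad ▸ Ideal.subset_span rfl
  rcases hpt with hsm | ⟨hP1, hP2, hnd⟩
  · exact ⟨fun hP => tori_sfd_pt_of_smooth 𝔫 hϖ0 (hP hπ12.1) hsm _ _ hrad h21 hP,
      fun hP => tori_sfd_pt_of_smooth 𝔫 hϖ0 (hP hπ12.2) hsm _ _ (by rw [hrad, inf_comm]) h12 hP⟩
  · have := tori_sfd_pt_of_node 𝔫 hϖ0 _ _ hπ12.1 hπ12.2 hP1 hP2 hnd
    exact ⟨fun _ => this.1, fun _ => this.2⟩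

/-- **(H-DIV) on both components** from the closed-point alternative on the two charts. -/
theorem tori_sfdi_hdiv_both {π : A0} (hπ : Irreducible π) {x : F0} (hx : Transcendental L x)
    [FiniteDimensional L⟮x⟯ F0] {V1 V2 : ValuationSubring F0}
    (H : ssm_tp_Hyp (algebraMap A0 (Algebra.adjoin A0 ({x} : Set F0)) π) V1 V2)
    (hpts1 : ∀ 𝔫 : Ideal (fc_chart A0 ({x} : Set F0)), 𝔫.IsMaximal →
      algebraMap A0 (fc_chart A0 ({x} : Set F0)) π ∈ 𝔫 →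
      ss_SmoothAt π (fc_chart A0 ({x} : Set F0)) 𝔫 ∨
        (ssm_tp_P (fc_chart A0 ({x} : Set F0)) V1 ≤ 𝔫 ∧
          ssm_tp_P (fc_chart A0 ({x} : Set F0)) V2 ≤ 𝔫 ∧
          tori_sfd_NodeData 𝔫 π (ssm_tp_P (fc_chart A0 ({x} : Set F0)) V1)
            (ssm_tp_P (fc_chart A0 ({x} : Set F0)) V2)))
    (hpts2 : ∀ 𝔫 : Ideal (fc_chart A0 ({x⁻¹} : Set F0)), 𝔫.IsMaximal →
      algebraMap A0 (fc_chart A0 ({x⁻¹} : Set F0)) π ∈ 𝔫 →
      (⟨x⁻¹, fc_x_mem_chart x⁻¹⟩ : fc_chart A0 ({x⁻¹} : Set F0)) ∈ 𝔫 →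
      ss_SmoothAt π (fc_chart A0 ({x⁻¹} : Set F0)) 𝔫 ∨
        (ssm_tp_P (fc_chart A0 ({x⁻¹} : Set F0)) V1 ≤ 𝔫 ∧
          ssm_tp_P (fc_chart A0 ({x⁻¹} : Set F0)) V2 ≤ 𝔫 ∧
          tori_sfd_NodeData 𝔫 π (ssm_tp_P (fc_chart A0 ({x⁻¹} : Set F0)) V1)
            (ssm_tp_P (fc_chart A0 ({x⁻¹} : Set F0)) V2)))
    (m : ℕ) {g : F0} (hg : g ≠ 0) (hord : ∀ P : AlgebraicCurve.Place L F0, (m : ℤ) ∣ P.ord g)
    (hg1 : g ∈ V1 ∧ g ∉ V1.nonunits) (hg2 : g ∈ V2 ∧ g ∉ V2.nonunits) :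
    (∀ 𝒱 : ValuationSubring F0, 𝒱 ≤ V1 → (∀ a : A0, algebraMap A0 F0 a ∈ 𝒱) →
      (∀ z ∈ 𝒱, ∃ p : A0[X], p.Monic ∧ aeval z p ∈ 𝒱.nonunits) →
      ∃ e ω : F0, g = ω * e ^ m ∧ (e ∈ V1 ∧ e ∉ V1.nonunits) ∧ (ω ∈ 𝒱 ∧ ω ∉ 𝒱.nonunits)) ∧
    (∀ 𝒱 : ValuationSubring F0, 𝒱 ≤ V2 → (∀ a : A0, algebraMap A0 F0 a ∈ 𝒱) →
      (∀ z ∈ 𝒱, ∃ p : A0[X], p.Monic ∧ aeval z p ∈ 𝒱.nonunits) →
      ∃ e ω : F0, g = ω * e ^ m ∧ (e ∈ V2 ∧ e ∉ V2.nonunits) ∧ (ω ∈ 𝒱 ∧ ω ∉ 𝒱.nonunits)) := by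
  have hxi : Transcendental L x⁻¹ := fun h => hx (IsAlgebraic.inv_iff.mp h)
  haveI hfd2 : FiniteDimensional L⟮x⁻¹⟯ F0 := by
    rw [rt_adjoin_inv]; infer_instance
  haveI : IsIntegrallyClosed (Algebra.adjoin A0 ({x} : Set F0)) :=
    fc_ff_isIntegrallyClosed (fc_ff_transcendental (L := L) hx)
  haveI : FaithfulSMul (Algebra.adjoin A0 ({x} : Set F0)) F0 :=
    (faithfulSMul_iff_algebraMap_injective _ _).2 Subtype.val_injective
  haveI : IsIntegrallyClosed (Algebra.adjoin A0 ({x⁻¹} : Set F0)) :=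
    fc_ff_isIntegrallyClosed (fc_ff_transcendental (L := L) hxi)
  haveI : FaithfulSMul (Algebra.adjoin A0 ({x⁻¹} : Set F0)) F0 :=
    (faithfulSMul_iff_algebraMap_injective _ _).2 Subtype.val_injective
  have hC1 := ssm_tp_ff_chart (L := L) hπ hx
  have hC2 := ssm_tp_ff_chart (L := L) hπ hxi
  have H2 := ssm_tp_ff_hyp_inv (L := L) hπ hx H
  constructor
  · intro 𝒱 h𝒱 hA halg
    refine tori_sfd_hdiv hπ hx H 𝒱 h𝒱 hA halg (fun 𝔫 h𝔫 hP => ?_) (fun 𝔫 h𝔫 hP hmem => ?_)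
      m hg hord hg1 hg2
    · have hπ𝔫 : algebraMap A0 (fc_chart A0 ({x} : Set F0)) π ∈ 𝔫 := by
        apply hP
        rw [H.mem_P1 hC1]
        exact H.over1.pi_mem
      exact (tori_sfdi_pt_chart hπ hx H 𝔫 h𝔫 (hpts1 𝔫 h𝔫 hπ𝔫)).1 hP
    · have hπ𝔫 : algebraMap A0 (fc_chart A0 ({x⁻¹} : Set F0)) π ∈ 𝔫 := by
        apply hP
        rw [H2.mem_P1 hC2]
        exact H2.over1.pi_mem
      exact (tori_sfdi_pt_chart hπ hxi H2 𝔫 h𝔫 (hpts2 𝔫 h𝔫 hπ𝔫 hmem)).1 hP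
  · intro 𝒱 h𝒱 hA halg
    refine tori_sfd_hdiv hπ hx H.symm 𝒱 h𝒱 hA halg (fun 𝔫 h𝔫 hP => ?_)
      (fun 𝔫 h𝔫 hP hmem => ?_) m hg hord hg2 hg1
    · have hπ𝔫 : algebraMap A0 (fc_chart A0 ({x} : Set F0)) π ∈ 𝔫 := by
        apply hP
        rw [H.mem_P2 hC1]
        exact H.over2.pi_mem
      exact (tori_sfdi_pt_chart hπ hx H 𝔫 h𝔫 (hpts1 𝔫 h𝔫 hπ𝔫)).2 hP
    · have hπ𝔫 : algebraMap A0 (fc_chart A0 ({x⁻¹} : Set F0)) π ∈ 𝔫 := by
        apply hP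
        rw [H2.mem_P2 hC2]
        exact H2.over2.pi_mem
      exact (tori_sfdi_pt_chart hπ hxi H2 𝔫 h𝔫 (hpts2 𝔫 h𝔫 hπ𝔫 hmem)).2 hP

end FunField

end Fermat.Agent.S35
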