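/-
Project S35, cell **[SFD-INST]**, LEGENDRE tower (helper19).  Prefix `tori_sfdi_`.

`L ⊆ Q̄` a number field containing a primitive `N'`-th root of unity, `O` a discrete valuation ring
of `L` with uniformiser `q` (odd, `q ∤ N'`), `E = lg_E L (N' q)`, `V1 V2 = ssm_gl_V1 / ssm_gl_V2`
the two Gauss valuation rings.

* `tori_sfdi_leg_pts1` / `tori_sfdi_leg_pts2` : every closed point of the special fibre of the
  `λ`-chart (resp. every point at infinity of the `λ⁻¹`-chart) is a smooth point or a crossing point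
  with regular-node data (`ssm_si_smooth`, `ssm_nl_cross` + `ssm_nlb_thick_nf`, `ssm_inf_ff_smooth`);
* `tori_sfdi_leg` : **(H-DIV) for the Legendre tower**, on both components: if `G ∈ Eˣ` is a unit
  at `V1` and `V2` with all orders divisible by `m`, then for `i = 1, 2` and EVERY valuation subring
  `𝒱 ≤ V_i` containing `O` whose residue field is algebraic over `O / q`:
  `G = ω · e^m`, `e ∈ V_iˣ`, `ω ∈ 𝒱ˣ`.
-/
import Mathlib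
import Fermat.Agent.SS.Model.NodeLegB
import Fermat.Agent.S35.Toric.SFDInstGen

set_option autoImplicit false
set_option linter.style.haveILetI false
set_option linter.unusedSectionVars false
set_option linter.unusedVariables false

noncomputable section

namespace Fermat.Agent.S35

open Fermat.Agent.SS Fermat.Agent.JT3 IntermediateField ModularCurve IsLocalRing AlgebraicCurve
  Polynomial

section NF

variable (L : Type) [Field L] [NumberField L] [Algebra L (AlgebraicClosure ℚ)]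
  (O : ValuationSubring L) [IsDiscreteValuationRing O]
variable (N' q : ℕ) [NeZero N'] [NeZero q] [hq : Fact q.Prime] [CharP (ResidueField O) q]
  (hq2 : ¬ 2 ∣ q) (hqN' : ¬ q ∣ N') (hπ : Irreducible ((q : ℕ) : ↥O))
  (ζ : L) (hζ : IsPrimitiveRoot ζ N')

include hζ in
set_option synthInstance.maxHeartbeats 400000 in
set_option maxHeartbeats 3200000 in
/-- the closed points of the special fibre of the `λ`-chart. -/
theorem tori_sfdi_leg_pts1 :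
    ∀ 𝔫 : Ideal (fc_chart ↥O ({lg_lamE (N' * q)} : Set ↥(lg_E L (N' * q)))), 𝔫.IsMaximal →
      algebraMap ↥O (fc_chart ↥O ({lg_lamE (N' * q)} : Set ↥(lg_E L (N' * q))))
        ((q : ℕ) : ↥O) ∈ 𝔫 →
      ss_SmoothAt ((q : ℕ) : ↥O)
          (fc_chart ↥O ({lg_lamE (N' * q)} : Set ↥(lg_E L (N' * q)))) 𝔫 ∨
        (ssm_tp_P (fc_chart ↥O ({lg_lamE (N' * q)} : Set ↥(lg_E L (N' * q))))
            (ssm_gl_V1 O hπ N' q) ≤ 𝔫 ∧
          ssm_tp_P (fc_chart ↥O ({lg_lamE (N' * q)} : Set ↥(lg_E L (N' * q))))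
            (ssm_gl_V2 O hπ N' q hq2 hqN') ≤ 𝔫 ∧
          tori_sfd_NodeData 𝔫 ((q : ℕ) : ↥O)
            (ssm_tp_P (fc_chart ↥O ({lg_lamE (N' * q)} : Set ↥(lg_E L (N' * q))))
              (ssm_gl_V1 O hπ N' q))
            (ssm_tp_P (fc_chart ↥O ({lg_lamE (N' * q)} : Set ↥(lg_E L (N' * q))))
              (ssm_gl_V2 O hπ N' q hq2 hqN'))) := by
  intro 𝔫 h𝔫 hπ𝔫
  have hqO : ((q : ℕ) : O) ∈ maximalIdeal O := ssm_fln_q_mem L O q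
  have hq2' : q ≠ 2 := ssm_fl_ne_two q hq2
  have hp := ssm_ll_prime L N' hπ q hqO hq2' hqN' ζ hζ
  have F := ssm_fl_facts O hπ N' q hq2 hqN' hp.1
  have hs := ssm_si_smooth O hπ N' q hq2 hqN' hp.1 hp.2.1
    (ssm_ll_ic1 L N' hπ q hqO hq2' hqN' ζ hζ) (ssm_ll_ic2 L N' hπ q hqO hq2' hqN' ζ hζ)
    (ssm_ll_reg1 L N' hπ q hqO hq2' hqN' ζ hζ) (ssm_ll_reg2 L N' hπ q hqO hq2' hqN' ζ hζ) F
  by_cases h1 : ssm_tp_P (fc_chart ↥O ({lg_lamE (N' * q)} : Set ↥(lg_E L (N' * q))))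
      (ssm_gl_V1 O hπ N' q) ≤ 𝔫
  · by_cases h2 : ssm_tp_P (fc_chart ↥O ({lg_lamE (N' * q)} : Set ↥(lg_E L (N' * q))))
        (ssm_gl_V2 O hπ N' q hq2 hqN') ≤ 𝔫
    · right
      refine ⟨h1, h2, ?_⟩
      letI := ssm_gi_algebra (ssm_al_E_le L N' q)
      haveI := ssm_gt_isScalarTower O (ssm_al_E_le L N' q)
      have C := ssm_nl_cross O hπ N' q hq2 hqN' hp.1 (ssm_ll_ic1 L N' hπ q hqO hq2' hqN' ζ hζ) F
        (fun 𝔫' a1 a2 a3 a4 a5 => ssm_ll_EC L N' hπ q hqO hq2' hqN' 𝔫' a1 a2 a3 a4 a5)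
      refine tori_sfdi_nodeData_of_cross C ((q : ℕ) : ↥O) ?_ 𝔫 h𝔫 h1 h2
        (ssm_nlb_thick_nf L O N' q hq2 hqN' hπ ζ hζ 𝔫 h𝔫 h1 h2)
      refine (C.hφ _).trans ?_
      exact (IsScalarTower.algebraMap_apply ↥O ↥(lg_E L N') ↥(lg_E L (N' * q)) _).symm
    · left
      exact hs.1 𝔫 h𝔫 hπ𝔫 h2
  · left
    exact hs.2.1 𝔫 h𝔫 hπ𝔫 h1

include hζ hq2 hqN' hπ in
set_option synthInstance.maxHeartbeats 400000 in
set_option maxHeartbeats 3200000 in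
/-- the points at infinity of the `λ⁻¹`-chart are smooth. -/
theorem tori_sfdi_leg_pts2 :
    ∀ 𝔫 : Ideal (fc_chart ↥O ({(lg_lamE (N' * q))⁻¹} : Set ↥(lg_E L (N' * q)))), 𝔫.IsMaximal →
      algebraMap ↥O (fc_chart ↥O ({(lg_lamE (N' * q))⁻¹} : Set ↥(lg_E L (N' * q))))
        ((q : ℕ) : ↥O) ∈ 𝔫 →
      (⟨(lg_lamE (N' * q))⁻¹, fc_x_mem_chart _⟩ :
        fc_chart ↥O ({(lg_lamE (N' * q))⁻¹} : Set ↥(lg_E L (N' * q)))) ∈ 𝔫 →
      ss_SmoothAt ((q : ℕ) : ↥O)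
        (fc_chart ↥O ({(lg_lamE (N' * q))⁻¹} : Set ↥(lg_E L (N' * q)))) 𝔫 := by
  intro 𝔫 h𝔫 hπ𝔫 hμ𝔫
  have hqO : ((q : ℕ) : O) ∈ maximalIdeal O := ssm_fln_q_mem L O q
  have hq2' : q ≠ 2 := ssm_fl_ne_two q hq2
  have hp := ssm_ll_prime L N' hπ q hqO hq2' hqN' ζ hζ
  have F := ssm_fl_facts O hπ N' q hq2 hqN' hp.1
  have hs := ssm_si_smooth O hπ N' q hq2 hqN' hp.1 hp.2.1
    (ssm_ll_ic1 L N' hπ q hqO hq2' hqN' ζ hζ) (ssm_ll_ic2 L N' hπ q hqO hq2' hqN' ζ hζ)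
    (ssm_ll_reg1 L N' hπ q hqO hq2' hqN' ζ hζ) (ssm_ll_reg2 L N' hπ q hqO hq2' hqN' ζ hζ) F
  haveI := ssm_go_isScalarTower O (lg_E L (N' * q))
  haveI : FiniteDimensional L⟮(lg_lamE (N' * q) : lg_E L (N' * q))⟯ ↥(lg_E L (N' * q)) :=
    lgf_finite L (N' * q)
  have hx : Transcendental L (lg_lamE (L := L) (N' * q)) :=
    lgf_lam_transcendental L (N' * q) two_ne_zero
  have H := ssm_gl_hyp O hπ N' q hq2 hqN' hp.1
  have hWA : ∀ a : ↥O, ssm_gl_W L N' q hq2 hqN' (algebraMap ↥O ↥(lg_E L (N' * q)) a) =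
      algebraMap ↥O ↥(lg_E L (N' * q)) a := fun a =>
    (ssm_al_WE L N' q hq.out hq2 hqN').commutes (a : L)
  obtain ⟨hWB, hw, hw', hsub⟩ := ssm_inf_of_facts (ssm_gl_W L N' q hq2 hqN') hWA F
  exact ssm_inf_ff_smooth (L := L) hπ hx H (ssm_gl_W L N' q hq2 hqN')
    (ssm_al_WE_WE L N' q hq.out hq2 hqN') (fun _ => Iff.rfl) hWB hq.out.two_le hw hw' hsub
    hs.2.2.1 hs.2.2.2 𝔫 h𝔫 hπ𝔫 hμ𝔫

include hζ in
set_option synthInstance.maxHeartbeats 400000 in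
set_option maxHeartbeats 3200000 in
/-- **(H-DIV) for the Legendre tower over a number-field level**, both components. -/
theorem tori_sfdi_leg (m : ℕ) {G : ↥(lg_E L (N' * q))} (hG : G ≠ 0)
    (hord : ∀ P : Place L ↥(lg_E L (N' * q)), (m : ℤ) ∣ P.ord G)
    (hG1 : G ∈ ssm_gl_V1 O hπ N' q ∧ G ∉ (ssm_gl_V1 O hπ N' q).nonunits)
    (hG2 : G ∈ ssm_gl_V2 O hπ N' q hq2 hqN' ∧ G ∉ (ssm_gl_V2 O hπ N' q hq2 hqN').nonunits) :
    (∀ 𝒱 : ValuationSubring ↥(lg_E L (N' * q)), 𝒱 ≤ ssm_gl_V1 O hπ N' q →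
      (∀ a : ↥O, algebraMap ↥O ↥(lg_E L (N' * q)) a ∈ 𝒱) →
      (∀ z ∈ 𝒱, ∃ p : (↥O)[X], p.Monic ∧ aeval z p ∈ 𝒱.nonunits) →
      ∃ e ω : ↥(lg_E L (N' * q)), G = ω * e ^ m ∧
        (e ∈ ssm_gl_V1 O hπ N' q ∧ e ∉ (ssm_gl_V1 O hπ N' q).nonunits) ∧
        (ω ∈ 𝒱 ∧ ω ∉ 𝒱.nonunits)) ∧
    (∀ 𝒱 : ValuationSubring ↥(lg_E L (N' * q)), 𝒱 ≤ ssm_gl_V2 O hπ N' q hq2 hqN' →
      (∀ a : ↥O, algebraMap ↥O ↥(lg_E L (N' * q)) a ∈ 𝒱) →
      (∀ z ∈ 𝒱, ∃ p : (↥O)[X], p.Monic ∧ aeval z p ∈ 𝒱.nonunits) →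
      ∃ e ω : ↥(lg_E L (N' * q)), G = ω * e ^ m ∧
        (e ∈ ssm_gl_V2 O hπ N' q hq2 hqN' ∧ e ∉ (ssm_gl_V2 O hπ N' q hq2 hqN').nonunits) ∧
        (ω ∈ 𝒱 ∧ ω ∉ 𝒱.nonunits)) := by
  have hqO : ((q : ℕ) : O) ∈ maximalIdeal O := ssm_fln_q_mem L O q
  have hq2' : q ≠ 2 := ssm_fl_ne_two q hq2
  have hp := ssm_ll_prime L N' hπ q hqO hq2' hqN' ζ hζ
  haveI := ssm_go_isScalarTower O (lg_E L (N' * q))
  haveI : FiniteDimensional L⟮(lg_lamE (N' * q) : lg_E L (N' * q))⟯ ↥(lg_E L (N' * q)) :=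
    lgf_finite L (N' * q)
  have hx : Transcendental L (lg_lamE (L := L) (N' * q)) :=
    lgf_lam_transcendental L (N' * q) two_ne_zero
  have H := ssm_gl_hyp O hπ N' q hq2 hqN' hp.1
  exact tori_sfdi_hdiv_both (L := L) hπ hx H
    (tori_sfdi_leg_pts1 L O N' q hq2 hqN' hπ ζ hζ)
    (fun 𝔫 h𝔫 hπ𝔫 hμ => Or.inl (tori_sfdi_leg_pts2 L O N' q hq2 hqN' hπ ζ hζ 𝔫 h𝔫 hπ𝔫 hμ))
    m hG hord hG1 hG2

end NF

end Fermat.Agent.S35
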