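/-
Project S35, cell **[SFD-INST]**, HESSE tower (helper19).  Prefix `tori_sfdi_`.
Twin of `SFDInstLeg.lean` (coordinate `x = μ - 1`, `q ≠ 3`; in the application `q = 2`).

`L ⊆ Q̄` a number field containing a primitive `3N'`-th root of unity, `O` a discrete valuation ring
of `L` with uniformiser `q` (`q ≠ 3`, `q ∤ N'`, `3 ∈ Oˣ`), `E = hs_E L h3 (N' q)`,
`V1 V2 = ssm_fh_V1 / ssm_fh_V2` the two Gauss valuation rings.

* `tori_sfdi_hes_pts1` / `tori_sfdi_hes_pts2` : the closed points of the special fibre of the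
  `x`-chart (resp. the points at infinity of the `x⁻¹`-chart): smooth, or crossing with
  regular-node data (`ssm_sih_smooth`, `ssm_nh_cross` + `ssm_nht_thick_nf`, `ssm_inf_ff_smooth`);
* `tori_sfdi_hes` : **(H-DIV) for the Hesse tower**, on both components.
-/
import Mathlib
import Fermat.Agent.SS.Model.NodeHesThick
import Fermat.Agent.SS.Model.FinalHesNF
import Fermat.Agent.S35.Toric.SFDInstGen

set_option autoImplicit false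
set_option linter.style.haveILetI false
set_option linter.unusedSectionVars false
set_option linter.unusedVariables false

noncomputable section

namespace Fermat.Agent.S35

open Fermat.Agent.SS Fermat.Agent.JT3 IntermediateField ModularCurve IsLocalRing AlgebraicCurve
  Polynomial

section NF

variable (L : Type) [Field L] [NumberField L] [Algebra L (AlgebraicClosure ℚ)]
  (h3 : (3 : L) ≠ 0) (O : ValuationSubring L) [IsDiscreteValuationRing O] (h3O : IsUnit (3 : O))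
variable (N' q : ℕ) [NeZero N'] [NeZero q] [hq : Fact q.Prime] [CharP (ResidueField O) q]
  (hq3 : ¬ 3 ∣ q) (hqN' : ¬ q ∣ N') (hπ : Irreducible ((q : ℕ) : ↥O))
  (ζ : L) (hζ : IsPrimitiveRoot ζ (3 * N'))

include hζ in
set_option synthInstance.maxHeartbeats 400000 in
set_option maxHeartbeats 3200000 in
/-- the closed points of the special fibre of the `x`-chart. -/
theorem tori_sfdi_hes_pts1 :
    ∀ 𝔫 : Ideal (fc_chart ↥O ({hs_muE h3 (N' * q) - 1} : Set ↥(hs_E L h3 (N' * q)))),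
      𝔫.IsMaximal →
      algebraMap ↥O (fc_chart ↥O ({hs_muE h3 (N' * q) - 1} : Set ↥(hs_E L h3 (N' * q))))
        ((q : ℕ) : ↥O) ∈ 𝔫 →
      ss_SmoothAt ((q : ℕ) : ↥O)
          (fc_chart ↥O ({hs_muE h3 (N' * q) - 1} : Set ↥(hs_E L h3 (N' * q)))) 𝔫 ∨
        (ssm_tp_P (fc_chart ↥O ({hs_muE h3 (N' * q) - 1} : Set ↥(hs_E L h3 (N' * q))))
            (ssm_fh_V1 h3 O h3O hπ N' q) ≤ 𝔫 ∧
          ssm_tp_P (fc_chart ↥O ({hs_muE h3 (N' * q) - 1} : Set ↥(hs_E L h3 (N' * q))))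
            (ssm_fh_V2 h3 O h3O hπ N' q hq3 hqN') ≤ 𝔫 ∧
          tori_sfd_NodeData 𝔫 ((q : ℕ) : ↥O)
            (ssm_tp_P (fc_chart ↥O ({hs_muE h3 (N' * q) - 1} : Set ↥(hs_E L h3 (N' * q))))
              (ssm_fh_V1 h3 O h3O hπ N' q))
            (ssm_tp_P (fc_chart ↥O ({hs_muE h3 (N' * q) - 1} : Set ↥(hs_E L h3 (N' * q))))
              (ssm_fh_V2 h3 O h3O hπ N' q hq3 hqN'))) := by
  intro 𝔫 h𝔫 hπ𝔫
  have hqO : ((q : ℕ) : O) ∈ maximalIdeal O := by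
    rw [← residue_eq_zero_iff, map_natCast]
    exact CharP.cast_eq_zero _ q
  have hq3' : q ≠ 3 := by
    rintro rfl
    exact hq3 dvd_rfl
  obtain ⟨ω, hω, hram', hram⟩ := ssm_nht_ram h3 O N' (N' * q) hζ
  obtain ⟨hreg1, hreg2, hprime1, hprime2, -, hded1, hded2⟩ :=
    ssm_hlr_main h3 O N' hπ q hqO hq3' hqN' ζ hζ
  have hic1 : IsIntegrallyClosed (fc_chart ↥O ({hs_muE h3 N' - 1} : Set ↥(hs_E L h3 N')) ⧸
      (Ideal.span {algebraMap ↥O (fc_chart ↥O ({hs_muE h3 N' - 1} : Set ↥(hs_E L h3 N')))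
          ((q : ℕ) : ↥O)} :
        Ideal (fc_chart ↥O ({hs_muE h3 N' - 1} : Set ↥(hs_E L h3 N'))))) := by
    haveI := hded1
    infer_instance
  have hic2 : IsIntegrallyClosed (fc_chart ↥O ({(hs_muE h3 N' - 1)⁻¹} : Set ↥(hs_E L h3 N')) ⧸
      (Ideal.span {algebraMap ↥O
          (fc_chart ↥O ({(hs_muE h3 N' - 1)⁻¹} : Set ↥(hs_E L h3 N'))) ((q : ℕ) : ↥O)} :
        Ideal (fc_chart ↥O ({(hs_muE h3 N' - 1)⁻¹} : Set ↥(hs_E L h3 N'))))) := by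
    haveI := hded2
    infer_instance
  obtain ⟨hsm11, hsm12, -, -⟩ :=
    ssm_sih_smooth h3 O h3O hπ N' q hq3 hqN' hprime1 hprime2 hic1 hic2 hreg1 hreg2
  by_cases h1 : ssm_tp_P (fc_chart ↥O ({hs_muE h3 (N' * q) - 1} : Set ↥(hs_E L h3 (N' * q))))
      (ssm_fh_V1 h3 O h3O hπ N' q) ≤ 𝔫
  · by_cases h2 : ssm_tp_P (fc_chart ↥O ({hs_muE h3 (N' * q) - 1} :
        Set ↥(hs_E L h3 (N' * q)))) (ssm_fh_V2 h3 O h3O hπ N' q hq3 hqN') ≤ 𝔫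
    · right
      refine ⟨h1, h2, ?_⟩
      letI := ssm_gi_algebra (ssm_alh_E_le L h3 (ssm_fh_hF9 h3) N' q)
      haveI := ssm_gt_isScalarTower O (ssm_alh_E_le L h3 (ssm_fh_hF9 h3) N' q)
      have C := ssm_nh_cross h3 O h3O hπ N' q hq3 hqN' hprime1 hic1
        (ssm_hl_EC_aeval h3 O N' hπ q hqO hq3' hqN' ω hω hram')
      refine tori_sfdi_nodeData_of_cross C ((q : ℕ) : ↥O) ?_ 𝔫 h𝔫 h1 h2
        (ssm_nht_thick_nf L h3 O h3O N' q hq3 hqN' hπ ζ hζ 𝔫 h𝔫 h1 h2)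
      refine (C.hφ _).trans ?_
      exact (IsScalarTower.algebraMap_apply ↥O ↥(hs_E L h3 N') ↥(hs_E L h3 (N' * q)) _).symm
    · left
      exact hsm11 𝔫 h𝔫 hπ𝔫 h2
  · left
    exact hsm12 𝔫 h𝔫 hπ𝔫 h1

include hζ hq3 hqN' hπ h3O in
set_option synthInstance.maxHeartbeats 400000 in
set_option maxHeartbeats 3200000 in
/-- the points at infinity of the `x⁻¹`-chart are smooth. -/
theorem tori_sfdi_hes_pts2 :
    ∀ 𝔫 : Ideal (fc_chart ↥O ({(hs_muE h3 (N' * q) - 1)⁻¹} : Set ↥(hs_E L h3 (N' * q)))),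
      𝔫.IsMaximal →
      algebraMap ↥O (fc_chart ↥O ({(hs_muE h3 (N' * q) - 1)⁻¹} : Set ↥(hs_E L h3 (N' * q))))
        ((q : ℕ) : ↥O) ∈ 𝔫 →
      (⟨(hs_muE h3 (N' * q) - 1)⁻¹, fc_x_mem_chart _⟩ :
        fc_chart ↥O ({(hs_muE h3 (N' * q) - 1)⁻¹} : Set ↥(hs_E L h3 (N' * q)))) ∈ 𝔫 →
      ss_SmoothAt ((q : ℕ) : ↥O)
        (fc_chart ↥O ({(hs_muE h3 (N' * q) - 1)⁻¹} : Set ↥(hs_E L h3 (N' * q)))) 𝔫 := by
  intro 𝔫 h𝔫 hπ𝔫 hμ𝔫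
  have hqO : ((q : ℕ) : O) ∈ maximalIdeal O := by
    rw [← residue_eq_zero_iff, map_natCast]
    exact CharP.cast_eq_zero _ q
  have hq3' : q ≠ 3 := by
    rintro rfl
    exact hq3 dvd_rfl
  obtain ⟨hreg1, hreg2, hprime1, hprime2, -, hded1, hded2⟩ :=
    ssm_hlr_main h3 O N' hπ q hqO hq3' hqN' ζ hζ
  have hic1 : IsIntegrallyClosed (fc_chart ↥O ({hs_muE h3 N' - 1} : Set ↥(hs_E L h3 N')) ⧸
      (Ideal.span {algebraMap ↥O (fc_chart ↥O ({hs_muE h3 N' - 1} : Set ↥(hs_E L h3 N')))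
          ((q : ℕ) : ↥O)} :
        Ideal (fc_chart ↥O ({hs_muE h3 N' - 1} : Set ↥(hs_E L h3 N'))))) := by
    haveI := hded1
    infer_instance
  have hic2 : IsIntegrallyClosed (fc_chart ↥O ({(hs_muE h3 N' - 1)⁻¹} : Set ↥(hs_E L h3 N')) ⧸
      (Ideal.span {algebraMap ↥O
          (fc_chart ↥O ({(hs_muE h3 N' - 1)⁻¹} : Set ↥(hs_E L h3 N'))) ((q : ℕ) : ↥O)} :
        Ideal (fc_chart ↥O ({(hs_muE h3 N' - 1)⁻¹} : Set ↥(hs_E L h3 N'))))) := by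
    haveI := hded2
    infer_instance
  obtain ⟨-, -, hsm21, hsm22⟩ :=
    ssm_sih_smooth h3 O h3O hπ N' q hq3 hqN' hprime1 hprime2 hic1 hic2 hreg1 hreg2
  haveI := ssm_go_isScalarTower O (hs_E L h3 (N' * q))
  haveI := ssm_glh_finite h3 (N' * q)
  obtain ⟨hWB, hw, hw', hsub⟩ := ssm_sfh_inf h3 O h3O hπ N' q hq3 hqN' hprime1
  exact ssm_inf_ff_smooth (L := L) hπ (ssm_sgm_transcendental h3 (N' * q))
    (ssm_fh_hyp h3 O h3O hπ N' q hq3 hqN' hprime1) (ssm_fh_W h3 N' q hq3 hqN')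
    (ssm_fh_W_W h3 N' q hq3 hqN') (fun _ => Iff.rfl) hWB hq.out.two_le hw hw' hsub
    hsm21 hsm22 𝔫 h𝔫 hπ𝔫 hμ𝔫

include hζ in
set_option synthInstance.maxHeartbeats 400000 in
set_option maxHeartbeats 3200000 in
/-- **(H-DIV) for the Hesse tower over a number-field level**, both components. -/
theorem tori_sfdi_hes (m : ℕ) {G : ↥(hs_E L h3 (N' * q))} (hG : G ≠ 0)
    (hord : ∀ P : Place L ↥(hs_E L h3 (N' * q)), (m : ℤ) ∣ P.ord G)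
    (hG1 : G ∈ ssm_fh_V1 h3 O h3O hπ N' q ∧ G ∉ (ssm_fh_V1 h3 O h3O hπ N' q).nonunits)
    (hG2 : G ∈ ssm_fh_V2 h3 O h3O hπ N' q hq3 hqN' ∧
      G ∉ (ssm_fh_V2 h3 O h3O hπ N' q hq3 hqN').nonunits) :
    (∀ 𝒱 : ValuationSubring ↥(hs_E L h3 (N' * q)), 𝒱 ≤ ssm_fh_V1 h3 O h3O hπ N' q →
      (∀ a : ↥O, algebraMap ↥O ↥(hs_E L h3 (N' * q)) a ∈ 𝒱) →
      (∀ z ∈ 𝒱, ∃ p : (↥O)[X], p.Monic ∧ aeval z p ∈ 𝒱.nonunits) →
      ∃ e ω : ↥(hs_E L h3 (N' * q)), G = ω * e ^ m ∧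
        (e ∈ ssm_fh_V1 h3 O h3O hπ N' q ∧ e ∉ (ssm_fh_V1 h3 O h3O hπ N' q).nonunits) ∧
        (ω ∈ 𝒱 ∧ ω ∉ 𝒱.nonunits)) ∧
    (∀ 𝒱 : ValuationSubring ↥(hs_E L h3 (N' * q)), 𝒱 ≤ ssm_fh_V2 h3 O h3O hπ N' q hq3 hqN' →
      (∀ a : ↥O, algebraMap ↥O ↥(hs_E L h3 (N' * q)) a ∈ 𝒱) →
      (∀ z ∈ 𝒱, ∃ p : (↥O)[X], p.Monic ∧ aeval z p ∈ 𝒱.nonunits) →
      ∃ e ω : ↥(hs_E L h3 (N' * q)), G = ω * e ^ m ∧
        (e ∈ ssm_fh_V2 h3 O h3O hπ N' q hq3 hqN' ∧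
          e ∉ (ssm_fh_V2 h3 O h3O hπ N' q hq3 hqN').nonunits) ∧
        (ω ∈ 𝒱 ∧ ω ∉ 𝒱.nonunits)) := by
  have hqO : ((q : ℕ) : O) ∈ maximalIdeal O := by
    rw [← residue_eq_zero_iff, map_natCast]
    exact CharP.cast_eq_zero _ q
  have hq3' : q ≠ 3 := by
    rintro rfl
    exact hq3 dvd_rfl
  obtain ⟨-, -, hprime1, -, -, -, -⟩ := ssm_hlr_main h3 O N' hπ q hqO hq3' hqN' ζ hζ
  haveI := ssm_go_isScalarTower O (hs_E L h3 (N' * q))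
  haveI := ssm_glh_finite h3 (N' * q)
  exact tori_sfdi_hdiv_both (L := L) hπ (ssm_sgm_transcendental h3 (N' * q))
    (ssm_fh_hyp h3 O h3O hπ N' q hq3 hqN' hprime1)
    (tori_sfdi_hes_pts1 L h3 O h3O N' q hq3 hqN' hπ ζ hζ)
    (fun 𝔫 h𝔫 hπ𝔫 hμ =>
      Or.inl (tori_sfdi_hes_pts2 L h3 O h3O N' q hq3 hqN' hπ ζ hζ 𝔫 h𝔫 hπ𝔫 hμ))
    m hG hord hG1 hG2

end NF

end Fermat.Agent.S35
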