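/-
Project S35, cell **[SFD]** (helper19): THE COMPOSITE OF TWO VALUATION RINGS.  Prefix `tori_comp_`.
Mathlib only.

`V` a valuation subring of a field `F`, `r : V →+* κ` a ring homomorphism into a field which kills
the non-units of `V` (e.g. a reduction map onto the residue field), `W` a valuation subring of `κ`.
Then `𝒱 = {z ∈ V | r z ∈ W}` is a valuation subring of `F`, `𝒱 ≤ V`, and
`𝔪(𝒱) = {z ∈ V | r z ∈ 𝔪(W)}`.
-/
import Mathlib

set_option autoImplicit false
set_option linter.unusedSectionVars false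

namespace Fermat.Agent.S35

variable {F κ : Type*} [Field F] [Field κ] (V : ValuationSubring F) (r : ↥V →+* κ)
  (hker : ∀ z : ↥V, (z : F) ∈ V.nonunits → r z = 0) (W : ValuationSubring κ)

/-- a non-unit of a valuation subring is an element whose inverse is not in it (or zero). -/
theorem tori_comp_inv_aux {z : F} (_hz : z ∈ V) (hzi : z⁻¹ ∉ V) : z ∈ V.nonunits := by
  rw [ValuationSubring.mem_nonunits_iff_or]
  exact Or.inr hzi

theorem tori_comp_inv_aux' {z : F} (hz : z ∉ V) : z⁻¹ ∈ V.nonunits := by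
  rw [ValuationSubring.mem_nonunits_iff_or]
  right
  rwa [inv_inv]

theorem tori_comp_r_inv {z : F} (hz : z ∈ V) (hzi : z⁻¹ ∈ V) (hz0 : z ≠ 0) :
    r ⟨z⁻¹, hzi⟩ = (r ⟨z, hz⟩)⁻¹ := by
  have h1 : r ⟨z, hz⟩ * r ⟨z⁻¹, hzi⟩ = 1 := by
    rw [← map_mul]
    have : (⟨z, hz⟩ * ⟨z⁻¹, hzi⟩ : ↥V) = 1 := Subtype.ext (mul_inv_cancel₀ hz0)
    rw [this, map_one]
  exact eq_inv_of_mul_eq_one_right h1

/-- **the composite valuation ring** `{z ∈ V | r z ∈ W}`. -/
def tori_comp : ValuationSubring F where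
  carrier := {z | ∃ h : z ∈ V, r ⟨z, h⟩ ∈ W}
  mul_mem' := by
    rintro a b ⟨ha, hra⟩ ⟨hb, hrb⟩
    refine ⟨V.mul_mem _ _ ha hb, ?_⟩
    have : (⟨a * b, V.mul_mem _ _ ha hb⟩ : ↥V) = ⟨a, ha⟩ * ⟨b, hb⟩ := rfl
    rw [this, map_mul]
    exact W.mul_mem _ _ hra hrb
  one_mem' := by
    refine ⟨V.one_mem, ?_⟩
    have : (⟨1, V.one_mem⟩ : ↥V) = 1 := rfl
    rw [this, map_one]
    exact W.one_mem
  add_mem' := by
    rintro a b ⟨ha, hra⟩ ⟨hb, hrb⟩
    refine ⟨V.add_mem _ _ ha hb, ?_⟩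
    have : (⟨a + b, V.add_mem _ _ ha hb⟩ : ↥V) = ⟨a, ha⟩ + ⟨b, hb⟩ := rfl
    rw [this, map_add]
    exact W.add_mem _ _ hra hrb
  zero_mem' := by
    refine ⟨V.zero_mem, ?_⟩
    have : (⟨0, V.zero_mem⟩ : ↥V) = 0 := rfl
    rw [this, map_zero]
    exact W.zero_mem
  neg_mem' := by
    rintro a ⟨ha, hra⟩
    refine ⟨V.neg_mem _ ha, ?_⟩
    have : (⟨-a, V.neg_mem _ ha⟩ : ↥V) = -⟨a, ha⟩ := rfl
    rw [this, map_neg]
    exact W.neg_mem _ hra
  mem_or_inv_mem' := by
    intro z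
    by_cases hz : z ∈ V
    · by_cases hzi : z⁻¹ ∈ V
      · by_cases hz0 : z = 0
        · left
          subst hz0
          refine ⟨V.zero_mem, ?_⟩
          have : (⟨0, V.zero_mem⟩ : ↥V) = 0 := rfl
          rw [this, map_zero]
          exact W.zero_mem
        · rcases W.mem_or_inv_mem (r ⟨z, hz⟩) with h | h
          · exact Or.inl ⟨hz, h⟩
          · right
            refine ⟨hzi, ?_⟩
            rw [tori_comp_r_inv V r hz hzi hz0]
            exact h
      · left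
        refine ⟨hz, ?_⟩
        rw [hker ⟨z, hz⟩ (tori_comp_inv_aux V hz hzi)]
        exact W.zero_mem
    · right
      have hzi : z⁻¹ ∈ V := (V.mem_or_inv_mem z).resolve_left hz
      refine ⟨hzi, ?_⟩
      rw [hker ⟨z⁻¹, hzi⟩ (tori_comp_inv_aux' V hz)]
      exact W.zero_mem

theorem tori_comp_mem_iff {z : F} :
    z ∈ tori_comp V r hker W ↔ ∃ h : z ∈ V, r ⟨z, h⟩ ∈ W := Iff.rfl

theorem tori_comp_le : tori_comp V r hker W ≤ V := fun _ hz => hz.1

/-- the maximal ideal of the composite. -/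
theorem tori_comp_mem_nonunits_iff {z : F} :
    z ∈ (tori_comp V r hker W).nonunits ↔ ∃ h : z ∈ V, r ⟨z, h⟩ ∈ W.nonunits := by
  constructor
  · intro hz
    have hz𝒱 : z ∈ tori_comp V r hker W := ValuationSubring.nonunits_subset hz
    obtain ⟨hzV, hrW⟩ := hz𝒱
    refine ⟨hzV, ?_⟩
    rw [ValuationSubring.mem_nonunits_iff_or] at hz ⊢
    rcases hz with rfl | hzi
    · left
      have : (⟨0, hzV⟩ : ↥V) = 0 := rfl
      rw [this, map_zero]
    · by_cases hziV : z⁻¹ ∈ V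
      · by_cases hz0 : z = 0
        · left
          subst hz0
          have : (⟨0, hzV⟩ : ↥V) = 0 := rfl
          rw [this, map_zero]
        · right
          intro hW
          apply hzi
          refine ⟨hziV, ?_⟩
          rw [tori_comp_r_inv V r hzV hziV hz0]
          exact hW
      · left
        exact hker ⟨z, hzV⟩ (tori_comp_inv_aux V hzV hziV)
  · rintro ⟨hzV, hrW⟩
    rw [ValuationSubring.mem_nonunits_iff_or]
    by_cases hz0 : z = 0
    · exact Or.inl hz0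
    · right
      rintro ⟨hziV, hri⟩
      rw [tori_comp_r_inv V r hzV hziV hz0] at hri
      rw [ValuationSubring.mem_nonunits_iff_or] at hrW
      rcases hrW with h0 | hni
      · have h1 : r ⟨z, hzV⟩ * r ⟨z⁻¹, hziV⟩ = 1 := by
          rw [← map_mul]
          have : (⟨z, hzV⟩ * ⟨z⁻¹, hziV⟩ : ↥V) = 1 := Subtype.ext (mul_inv_cancel₀ hz0)
          rw [this, map_one]
        rw [h0, zero_mul] at h1
        exact zero_ne_one h1
      · exact hni hri

/-- a unit of the composite reduces to a unit of `W`. -/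
theorem tori_comp_unit {z : F} (hz : z ∈ tori_comp V r hker W)
    (hnu : z ∉ (tori_comp V r hker W).nonunits) :
    r ⟨z, hz.1⟩ ∈ W ∧ r ⟨z, hz.1⟩ ∉ W.nonunits :=
  ⟨hz.2, fun h => hnu ((tori_comp_mem_nonunits_iff V r hker W).2 ⟨hz.1, h⟩)⟩

end Fermat.Agent.S35
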