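/-
Project S35, cell **[SFD]** (helper19): (H-DIV) IN PLACE FORM.  Prefix `tori_sfd_`.

`r : V1 →+* κ` a reduction map of the first Gauss valuation ring into a function field `κ / k`
(`k` the residue field of `A0`).  If `g` is a unit at `V1` and `V2` and all its orders at the places
of `F0 / L` are divisible by `m`, then **`m ∣ ord_v (r g)` for every place `v` of `κ / k`**.
-/
import Mathlib
import Fermat.Agent.S35.Toric.SFD
import Fermat.Agent.S35.Toric.Composite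
import Fermat.Agent.S24.Hurwitz.Places

set_option autoImplicit false
set_option linter.unusedSectionVars false
set_option linter.style.haveILetI false

namespace Fermat.Agent.S35

open Fermat.Agent.SS Fermat.Agent.JT3 Fermat.Agent.S24 IsLocalRing AlgebraicCurve Polynomial
  IntermediateField

universe v

section PlaceForm

variable {k κ : Type*} [Field k] [Field κ] [Algebra k κ]

/-- the residue field of a place of a function field is algebraic over the constants, in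
"monic polynomial" form. -/
theorem tori_sfd_place_alg (xb : κ) [Algebra.IsAlgebraic k⟮xb⟯ κ] (v : Place k κ) {y : κ}
    (hy : y ∈ v.toValuationSubring) :
    ∃ p : k[X], p.Monic ∧ aeval y p ∈ v.toValuationSubring.nonunits := by
  have halg : IsAlgebraic k (residue v.toValuationSubring ⟨y, hy⟩) :=
    hw_isAlgebraic_residue xb v ⟨y, hy⟩
  obtain ⟨p, hp, hp0⟩ := halg.isIntegral
  refine ⟨p, hp, ?_⟩
  have h1 : aeval (⟨y, hy⟩ : v.toValuationSubring) p ∈ maximalIdeal v.toValuationSubring := by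
    rw [← IsLocalRing.residue_eq_zero_iff]
    have h2 : residue v.toValuationSubring (aeval (⟨y, hy⟩ : v.toValuationSubring) p) =
        aeval (residue v.toValuationSubring ⟨y, hy⟩) p :=
      (Polynomial.aeval_algebraMap_apply v.ResidueField (⟨y, hy⟩ : v.toValuationSubring) p).symm
    rw [h2]
    exact hp0
  have h3 : ((aeval (⟨y, hy⟩ : v.toValuationSubring) p : v.toValuationSubring) : κ) =
      aeval y p :=
    (Polynomial.aeval_algebraMap_apply κ (⟨y, hy⟩ : v.toValuationSubring) p).symm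
  rw [← h3]
  exact (ValuationSubring.mem_nonunits_iff_exists_mem_maximalIdeal).2
    ⟨(aeval (⟨y, hy⟩ : v.toValuationSubring) p).2, h1⟩

/-- an element of a place's valuation ring which is not in its maximal ideal has order `0`. -/
theorem tori_sfd_ord_unit (v : Place k κ) {η : κ} (h1 : η ∈ v.toValuationSubring)
    (h2 : η ∉ v.toValuationSubring.nonunits) : v.ord η = 0 := by
  have h0 : η ≠ 0 := ssm_tp_ne_zero _ h2
  have hi : η⁻¹ ∈ v.toValuationSubring := ssm_tp_inv_mem _ h2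
  have a1 := (hw_mem_iff_ord_nonneg v h0).1 h1
  have a2 := (hw_mem_iff_ord_nonneg v (inv_ne_zero h0)).1 hi
  rw [v.ord_inv] at a2
  omega

end PlaceForm

section HDivPlace

variable {A0 L : Type*} {F0 : Type v} [CommRing A0] [IsDomain A0] [IsDiscreteValuationRing A0]
  [Field L] [CharZero L] [Field F0] [Algebra A0 L] [IsFractionRing A0 L] [Algebra L F0]
  [Algebra A0 F0] [IsScalarTower A0 L F0]

/-- **(H-DIV), place form.** -/
theorem tori_sfd_hdiv_place {π : A0} (hπ : Irreducible π) {x : F0} (hx : Transcendental L x)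
    [FiniteDimensional L⟮x⟯ F0] {V1 V2 : ValuationSubring F0}
    (H : ssm_tp_Hyp (algebraMap A0 (Algebra.adjoin A0 ({x} : Set F0)) π) V1 V2)
    (hpt1 : ∀ 𝔫 : Ideal (fc_chart A0 ({x} : Set F0)), 𝔫.IsMaximal →
      ssm_tp_P (fc_chart A0 ({x} : Set F0)) V1 ≤ 𝔫 →
      tori_sfd_Pt π (ssm_tp_P (fc_chart A0 ({x} : Set F0)) V1) 𝔫)
    (hpt2 : ∀ 𝔫 : Ideal (fc_chart A0 ({x⁻¹} : Set F0)), 𝔫.IsMaximal →
      ssm_tp_P (fc_chart A0 ({x⁻¹} : Set F0)) V1 ≤ 𝔫 →
      (⟨x⁻¹, fc_x_mem_chart x⁻¹⟩ : fc_chart A0 ({x⁻¹} : Set F0)) ∈ 𝔫 →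
      tori_sfd_Pt π (ssm_tp_P (fc_chart A0 ({x⁻¹} : Set F0)) V1) 𝔫)
    {k κ : Type*} [Field k] [Field κ] [Algebra k κ] (ρ : A0 →+* k) (hρ : Function.Surjective ρ)
    (r : ↥V1 →+* κ) (hker : ∀ z : ↥V1, (z : F0) ∈ V1.nonunits → r z = 0)
    (hrA : ∀ (a : A0) (h : algebraMap A0 F0 a ∈ V1),
      r ⟨algebraMap A0 F0 a, h⟩ = algebraMap k κ (ρ a))
    (xb : κ) [Algebra.IsAlgebraic k⟮xb⟯ κ]
    (m : ℕ) {g : F0} (hg : g ≠ 0) (hord : ∀ P : Place L F0, (m : ℤ) ∣ P.ord g)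
    (hg1 : g ∈ V1 ∧ g ∉ V1.nonunits) (hg2 : g ∈ V2 ∧ g ∉ V2.nonunits) (v : Place k κ) :
    (m : ℤ) ∣ v.ord (r ⟨g, hg1.1⟩) := by
  have hA1 : ∀ a : A0, algebraMap A0 F0 a ∈ V1 := fun a => by
    have := H.over1.le (algebraMap A0 (Algebra.adjoin A0 ({x} : Set F0)) a)
    exact this
  set W := v.toValuationSubring with hW
  set 𝒱 := tori_comp V1 r hker W with h𝒱def
  have h𝒱 : 𝒱 ≤ V1 := tori_comp_le V1 r hker W
  have hA : ∀ a : A0, algebraMap A0 F0 a ∈ 𝒱 := fun a =>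
    ⟨hA1 a, by rw [hrA]; exact v.algebraMap_mem' _⟩
  -- the ring homomorphism `A0 → V1`
  let ι : A0 →+* ↥V1 :=
    { toFun := fun a => ⟨algebraMap A0 F0 a, hA1 a⟩
      map_one' := Subtype.ext (map_one _)
      map_mul' := fun a b => Subtype.ext (map_mul _ a b)
      map_zero' := Subtype.ext (map_zero _)
      map_add' := fun a b => Subtype.ext (map_add _ a b) }
  have hι1 : V1.subtype.comp ι = algebraMap A0 F0 := RingHom.ext fun a => rfl
  have hι2 : r.comp ι = (algebraMap k κ).comp ρ := RingHom.ext fun a => hrA a (hA1 a)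
  have halg : ∀ z ∈ 𝒱, ∃ p : A0[X], p.Monic ∧ aeval z p ∈ 𝒱.nonunits := by
    rintro z ⟨hzV, hzW⟩
    obtain ⟨pb, hpb, hpbW⟩ := tori_sfd_place_alg xb v hzW
    obtain ⟨P, hPmap, -, hPm⟩ := Polynomial.lifts_and_degree_eq_and_monic
      ((Polynomial.mem_lifts _).2 (Polynomial.map_surjective ρ hρ pb)) hpb
    refine ⟨P, hPm, ?_⟩
    have h1 : ((eval₂ ι ⟨z, hzV⟩ P : ↥V1) : F0) = aeval z P := by
      have := Polynomial.hom_eval₂ P ι V1.subtype ⟨z, hzV⟩
      rw [hι1] at this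
      rw [aeval_def]
      exact this
    have h2 : r (eval₂ ι ⟨z, hzV⟩ P) = aeval (r ⟨z, hzV⟩) pb := by
      rw [Polynomial.hom_eval₂, hι2, ← Polynomial.eval₂_map, hPmap, aeval_def]
    rw [tori_comp_mem_nonunits_iff]
    refine ⟨h1 ▸ (eval₂ ι ⟨z, hzV⟩ P).2, ?_⟩
    have h3 : (⟨aeval z P, h1 ▸ (eval₂ ι ⟨z, hzV⟩ P).2⟩ : ↥V1) = eval₂ ι ⟨z, hzV⟩ P :=
      Subtype.ext h1.symm
    rw [h3, h2]
    exact hpbW
  obtain ⟨e, ω, hgω, ⟨he1, he2⟩, hω1, hω2⟩ :=
    tori_sfd_hdiv hπ hx H 𝒱 h𝒱 hA halg hpt1 hpt2 m hg hord hg1 hg2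
  obtain ⟨hωW, hωnu⟩ := tori_comp_unit V1 r hker W hω1 hω2
  -- `r g = r ω * (r e)^m`
  have hmul : r ⟨g, hg1.1⟩ = r ⟨ω, hω1.1⟩ * r ⟨e, he1⟩ ^ m := by
    rw [← map_pow, ← map_mul]
    congr 1
    exact Subtype.ext hgω
  have hre0 : r ⟨e, he1⟩ ≠ 0 := by
    have he0 : e ≠ 0 := ssm_tp_ne_zero V1 he2
    have hei : e⁻¹ ∈ V1 := ssm_tp_inv_mem V1 he2
    have h1 : r ⟨e, he1⟩ * r ⟨e⁻¹, hei⟩ = 1 := by
      rw [← map_mul]
      have : (⟨e, he1⟩ * ⟨e⁻¹, hei⟩ : ↥V1) = 1 := Subtype.ext (mul_inv_cancel₀ he0)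
      rw [this, map_one]
    exact left_ne_zero_of_mul_eq_one h1
  have hrω0 : r ⟨ω, hω1.1⟩ ≠ 0 := ssm_tp_ne_zero W hωnu
  rw [hmul, v.ord_mul hrω0 (pow_ne_zero m hre0), tori_sfd_ord_unit v hωW hωnu, zero_add,
    ← zpow_natCast, v.ord_zpow]
  exact dvd_mul_right _ _

end HDivPlace

end Fermat.Agent.S35
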