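/-
Project S35, cell **[SFD]** (helper19): the point hypothesis `tori_sfd_Pt` of (H-DIV) from the
SAME closed-point hypothesis `hpts` that helper10's `s35l_locAt_chart'` ([L]-φ) consumes
(`ss_SmoothAt π B 𝔫 ∨ s35l_NodeAt π τ Q P1 P2 𝔫`), so that ONE instance lemma on the charts of the
model feeds both [TORIC] and [ABEL].  Prefix `tori_sfd_`.
-/
import Mathlib
import Fermat.Agent.S35.Toric.SFDPlace
import Fermat.Agent.S35.LocalPhi.Main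

set_option autoImplicit false
set_option linter.unusedSectionVars false
set_option linter.style.haveILetI false

namespace Fermat.Agent.S35

open Fermat.Agent.SS Fermat.Agent.JT3 IsLocalRing AlgebraicCurve Polynomial IntermediateField

universe v

section Pts

variable {A0 : Type*} [CommRing A0] [IsDomain A0] [IsDiscreteValuationRing A0]
  {F0 : Type v} [Field F0] [Algebra A0 F0]
variable {B : Subalgebra A0 F0} [hfr : IsFractionRing B F0] [IsNoetherianRing B]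
  [IsIntegrallyClosed B]
variable {π : A0} {P1 P2 : Ideal B} [hP1 : P1.IsPrime] [hP2 : P2.IsPrime]

/-- **the point hypothesis of [SFD] at a regular node** in helper10's vocabulary. -/
theorem tori_sfd_pt_of_nodeAt (hϖ0 : algebraMap A0 F0 π ≠ 0)
    (hrad : Ideal.span {algebraMap A0 B π} = P1 ⊓ P2) (h12 : ¬ P1 ≤ P2) (h21 : ¬ P2 ≤ P1)
    (τ : F0 ≃+* F0) (Q : ℕ) (𝔫 : Ideal B) (h𝔫 : 𝔫.IsMaximal)
    (hnd : s35l_NodeAt π τ Q P1 P2 𝔫) : tori_sfd_Pt π P1 𝔫 ∧ tori_sfd_Pt π P2 𝔫 := by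
  haveI := h𝔫
  haveI h𝔫p : 𝔫.IsPrime := h𝔫.isPrime
  haveI := ssl_loc_isNoetherianRing (F0 := F0) 𝔫
  haveI := ssl_loc_isLocalRing (F0 := F0) 𝔫
  obtain ⟨hP1𝔫, hP2𝔫, -, u, v, e, huv, he, hu, hv, hgen, hu1, hv2⟩ := hnd
  obtain ⟨uR, vR, eR, -, -, -, huvR, huP, hvP, hmax, hspu, hspv⟩ :=
    s35l_node_ring 𝔫 hϖ0 hrad h12 h21 hP1𝔫 hP2𝔫 huv he hu hv hgen hu1 hv2
  have hufd : UniqueFactorizationMonoid (ssl_locSub F0 𝔫) := fc_ufd huP hmax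
  have hvϖ : vR ∣ algebraMap B (ssl_locSub F0 𝔫) (algebraMap A0 B π) := by
    have h1 : vR ∣ algebraMap B (ssl_locSub F0 𝔫) (algebraMap A0 B π) *
        (eR : ssl_locSub F0 𝔫) := ⟨uR, by rw [← huvR, mul_comm]⟩
    exact (eR.isUnit.dvd_mul_right).1 h1
  have huϖ : uR ∣ algebraMap B (ssl_locSub F0 𝔫) (algebraMap A0 B π) := by
    have h1 : uR ∣ algebraMap B (ssl_locSub F0 𝔫) (algebraMap A0 B π) *
        (eR : ssl_locSub F0 𝔫) := ⟨vR, huvR.symm⟩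
    exact (eR.isUnit.dvd_mul_right).1 h1
  refine ⟨⟨hfr, h𝔫p, hufd, vR, hvP, hvϖ, fun b hb => ?_⟩,
    ⟨hfr, h𝔫p, hufd, uR, huP, huϖ, fun b hb => ?_⟩⟩
  · have : algebraMap B (ssl_locSub F0 𝔫) b ∈ (Ideal.span {vR} : Ideal (ssl_locSub F0 𝔫)) := by
      rw [hspv]; exact Ideal.mem_map_of_mem _ hb
    exact Ideal.mem_span_singleton.1 this
  · have : algebraMap B (ssl_locSub F0 𝔫) b ∈ (Ideal.span {uR} : Ideal (ssl_locSub F0 𝔫)) := by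
      rw [hspu]; exact Ideal.mem_map_of_mem _ hb
    exact Ideal.mem_span_singleton.1 this

/-- **the closed-point hypothesis of [L]-φ gives the point hypotheses of (H-DIV)** on both
components. -/
theorem tori_sfd_pts_of (hϖ0 : algebraMap A0 F0 π ≠ 0)
    (hrad : Ideal.span {algebraMap A0 B π} = P1 ⊓ P2) (h12 : ¬ P1 ≤ P2) (h21 : ¬ P2 ≤ P1)
    (τ : F0 ≃+* F0) (Q : ℕ)
    (hpts : ∀ 𝔫 : Ideal B, 𝔫.IsMaximal → algebraMap A0 B π ∈ 𝔫 →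
      ss_SmoothAt π B 𝔫 ∨ s35l_NodeAt π τ Q P1 P2 𝔫) :
    (∀ 𝔫 : Ideal B, 𝔫.IsMaximal → P1 ≤ 𝔫 → tori_sfd_Pt π P1 𝔫) ∧
      (∀ 𝔫 : Ideal B, 𝔫.IsMaximal → P2 ≤ 𝔫 → tori_sfd_Pt π P2 𝔫) := by
  have hπ1 : algebraMap A0 B π ∈ P1 :=
    ((hrad ▸ Ideal.subset_span rfl : algebraMap A0 B π ∈ P1 ⊓ P2)).1
  have hπ2 : algebraMap A0 B π ∈ P2 :=
    ((hrad ▸ Ideal.subset_span rfl : algebraMap A0 B π ∈ P1 ⊓ P2)).2
  constructor
  · intro 𝔫 h𝔫 hP𝔫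
    haveI : 𝔫.IsPrime := h𝔫.isPrime
    rcases hpts 𝔫 h𝔫 (hP𝔫 hπ1) with hsm | hnd
    · exact tori_sfd_pt_of_smooth 𝔫 hϖ0 (hP𝔫 hπ1) hsm P1 P2 hrad h21 hP𝔫
    · exact (tori_sfd_pt_of_nodeAt hϖ0 hrad h12 h21 τ Q 𝔫 h𝔫 hnd).1
  · intro 𝔫 h𝔫 hP𝔫
    haveI : 𝔫.IsPrime := h𝔫.isPrime
    rcases hpts 𝔫 h𝔫 (hP𝔫 hπ2) with hsm | hnd
    · exact tori_sfd_pt_of_smooth 𝔫 hϖ0 (hP𝔫 hπ2) hsm P2 P1 (by rw [hrad, inf_comm]) h12 hP𝔫
    · exact (tori_sfd_pt_of_nodeAt hϖ0 hrad h12 h21 τ Q 𝔫 h𝔫 hnd).2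

end Pts

section FunField

variable {A0 L : Type*} {F0 : Type v} [CommRing A0] [IsDomain A0] [IsDiscreteValuationRing A0]
  [Field L] [CharZero L] [Field F0] [Algebra A0 L] [IsFractionRing A0 L] [Algebra L F0]
  [Algebra A0 F0] [IsScalarTower A0 L F0]

/-- the point hypothesis of (H-DIV) at a closed point of the chart `B_y` of a function field, from
helper10's closed-point alternative (smooth / regular Frobenius-fixed node). -/
theorem tori_sfd_pt_of_pts_chart {π : A0} (hπ : Irreducible π) {y : F0} (hy : Transcendental L y)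
    [FiniteDimensional L⟮y⟯ F0] {V1 V2 : ValuationSubring F0}
    (H : ssm_tp_Hyp (algebraMap A0 (Algebra.adjoin A0 ({y} : Set F0)) π) V1 V2)
    (τ : F0 ≃+* F0) (Q : ℕ) (𝔫 : Ideal (fc_chart A0 ({y} : Set F0))) (h𝔫 : 𝔫.IsMaximal)
    (hpt : ss_SmoothAt π (fc_chart A0 ({y} : Set F0)) 𝔫 ∨
      s35l_NodeAt π τ Q (ssm_tp_P (fc_chart A0 ({y} : Set F0)) V1)
        (ssm_tp_P (fc_chart A0 ({y} : Set F0)) V2) 𝔫) :
    (ssm_tp_P (fc_chart A0 ({y} : Set F0)) V1 ≤ 𝔫 →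
        tori_sfd_Pt π (ssm_tp_P (fc_chart A0 ({y} : Set F0)) V1) 𝔫) ∧
      (ssm_tp_P (fc_chart A0 ({y} : Set F0)) V2 ≤ 𝔫 →
        tori_sfd_Pt π (ssm_tp_P (fc_chart A0 ({y} : Set F0)) V2) 𝔫) := by
  have hyA : Transcendental A0 y := fc_ff_transcendental (L := L) hy
  haveI : IsIntegrallyClosed (Algebra.adjoin A0 ({y} : Set F0)) := fc_ff_isIntegrallyClosed hyA
  haveI : FaithfulSMul (Algebra.adjoin A0 ({y} : Set F0)) F0 :=
    (faithfulSMul_iff_algebraMap_injective _ _).2 Subtype.val_injective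
  have hC := ssm_tp_ff_chart (L := L) hπ hy
  haveI : Algebra.IsAlgebraic (Algebra.adjoin A0 ({y} : Set F0)) F0 := fc_ff_isAlgebraic (L := L) y
  haveI : IsNoetherianRing (fc_chart A0 ({y} : Set F0)) := by
    have := fc_chart_isNoetherianRing (A0 := A0) (F0 := F0) {y}
      (by rw [Finset.coe_singleton]; exact fc_ff_finite (L := L) hy)
    rwa [Finset.coe_singleton] at this
  haveI : IsIntegrallyClosed (fc_chart A0 ({y} : Set F0)) := by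
    refine (isIntegrallyClosed_iff F0).2 fun {z} hz => ?_
    have hz' : IsIntegral (integralClosure (Algebra.adjoin A0 ({y} : Set F0)) F0) z := hz
    have h1 : IsIntegral (Algebra.adjoin A0 ({y} : Set F0)) z :=
      isIntegral_trans (R := Algebra.adjoin A0 ({y} : Set F0))
        (A := integralClosure (Algebra.adjoin A0 ({y} : Set F0)) F0) z hz'
    exact ⟨⟨z, h1⟩, rfl⟩
  have hϖ0 : algebraMap A0 F0 π ≠ 0 := by
    have := H.algebraMap_ne_zero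
    exact this
  haveI := H.P1_isPrime hC
  haveI := H.P2_isPrime hC
  haveI : 𝔫.IsPrime := h𝔫.isPrime
  have hrad := H.P_inf hC (algebraMap A0 (fc_chart A0 ({y} : Set F0)) π) rfl
  have h12 := H.P_not_le12 hC
  have h21 := H.P_not_le21 hC
  have hπ1 : algebraMap A0 (fc_chart A0 ({y} : Set F0)) π ∈
      ssm_tp_P (fc_chart A0 ({y} : Set F0)) V1 :=
    ((hrad ▸ Ideal.subset_span rfl : algebraMap A0 (fc_chart A0 ({y} : Set F0)) π ∈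
      ssm_tp_P (fc_chart A0 ({y} : Set F0)) V1 ⊓ ssm_tp_P (fc_chart A0 ({y} : Set F0)) V2)).1
  have hπ2 : algebraMap A0 (fc_chart A0 ({y} : Set F0)) π ∈
      ssm_tp_P (fc_chart A0 ({y} : Set F0)) V2 :=
    ((hrad ▸ Ideal.subset_span rfl : algebraMap A0 (fc_chart A0 ({y} : Set F0)) π ∈
      ssm_tp_P (fc_chart A0 ({y} : Set F0)) V1 ⊓ ssm_tp_P (fc_chart A0 ({y} : Set F0)) V2)).2
  rcases hpt with hsm | hnd
  · exact ⟨fun hP => tori_sfd_pt_of_smooth 𝔫 hϖ0 (hP hπ1) hsm _ _ hrad h21 hP,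
      fun hP => tori_sfd_pt_of_smooth 𝔫 hϖ0 (hP hπ2) hsm _ _ (by rw [hrad, inf_comm]) h12 hP⟩
  · have := tori_sfd_pt_of_nodeAt hϖ0 hrad h12 h21 τ Q 𝔫 h𝔫 hnd
    exact ⟨fun _ => this.1, fun _ => this.2⟩

/-- **(H-DIV), place form, from the closed-point hypotheses of [L]-φ on the two charts**: for the
first component. (For the second one apply it to `H.symm`; `s35l_NodeAt` is symmetric up to the
exchange of `u` and `v`.) -/
theorem tori_sfd_hdiv_place_of_pts {π : A0} (hπ : Irreducible π) {x : F0}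
    (hx : Transcendental L x) [FiniteDimensional L⟮x⟯ F0] {V1 V2 : ValuationSubring F0}
    (H : ssm_tp_Hyp (algebraMap A0 (Algebra.adjoin A0 ({x} : Set F0)) π) V1 V2)
    (τ : F0 ≃+* F0) (Q : ℕ)
    (hpts1 : ∀ 𝔫 : Ideal (fc_chart A0 ({x} : Set F0)), 𝔫.IsMaximal →
      algebraMap A0 (fc_chart A0 ({x} : Set F0)) π ∈ 𝔫 →
      ss_SmoothAt π (fc_chart A0 ({x} : Set F0)) 𝔫 ∨
        s35l_NodeAt π τ Q (ssm_tp_P (fc_chart A0 ({x} : Set F0)) V1)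
          (ssm_tp_P (fc_chart A0 ({x} : Set F0)) V2) 𝔫)
    (hpts2 : ∀ 𝔫 : Ideal (fc_chart A0 ({x⁻¹} : Set F0)), 𝔫.IsMaximal →
      algebraMap A0 (fc_chart A0 ({x⁻¹} : Set F0)) π ∈ 𝔫 →
      (⟨x⁻¹, fc_x_mem_chart x⁻¹⟩ : fc_chart A0 ({x⁻¹} : Set F0)) ∈ 𝔫 →
      ss_SmoothAt π (fc_chart A0 ({x⁻¹} : Set F0)) 𝔫 ∨
        s35l_NodeAt π τ Q (ssm_tp_P (fc_chart A0 ({x⁻¹} : Set F0)) V1)
          (ssm_tp_P (fc_chart A0 ({x⁻¹} : Set F0)) V2) 𝔫)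
    {k κ : Type*} [Field k] [Field κ] [Algebra k κ] (ρ : A0 →+* k) (hρ : Function.Surjective ρ)
    (r : ↥V1 →+* κ) (hker : ∀ z : ↥V1, (z : F0) ∈ V1.nonunits → r z = 0)
    (hrA : ∀ (a : A0) (h : algebraMap A0 F0 a ∈ V1),
      r ⟨algebraMap A0 F0 a, h⟩ = algebraMap k κ (ρ a))
    (xb : κ) [Algebra.IsAlgebraic k⟮xb⟯ κ]
    (m : ℕ) {g : F0} (hg : g ≠ 0) (hord : ∀ P : Place L F0, (m : ℤ) ∣ P.ord g)
    (hg1 : g ∈ V1 ∧ g ∉ V1.nonunits) (hg2 : g ∈ V2 ∧ g ∉ V2.nonunits) (v : Place k κ) :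
    (m : ℤ) ∣ v.ord (r ⟨g, hg1.1⟩) := by
  have hxi : Transcendental L x⁻¹ := fun h => hx (IsAlgebraic.inv_iff.mp h)
  haveI hfd2 : FiniteDimensional L⟮x⁻¹⟯ F0 := by
    rw [rt_adjoin_inv]; infer_instance
  haveI : IsIntegrallyClosed (Algebra.adjoin A0 ({x} : Set F0)) :=
    fc_ff_isIntegrallyClosed (fc_ff_transcendental (L := L) hx)
  haveI : FaithfulSMul (Algebra.adjoin A0 ({x} : Set F0)) F0 :=
    (faithfulSMul_iff_algebraMap_injective _ _).2 Subtype.val_injective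
  haveI : IsIntegrallyClosed (Algebra.adjoin A0 ({x⁻¹} : Set F0)) :=
    fc_ff_isIntegrallyClosed (fc_ff_transcendental (L := L) hxi)
  haveI : FaithfulSMul (Algebra.adjoin A0 ({x⁻¹} : Set F0)) F0 :=
    (faithfulSMul_iff_algebraMap_injective _ _).2 Subtype.val_injective
  have hC1 := ssm_tp_ff_chart (L := L) hπ hx
  have hC2 := ssm_tp_ff_chart (L := L) hπ hxi
  have H2 := ssm_tp_ff_hyp_inv (L := L) hπ hx H
  refine tori_sfd_hdiv_place hπ hx H (fun 𝔫 h𝔫 hP => ?_) (fun 𝔫 h𝔫 hP hmem => ?_) ρ hρ r hker hrA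
    xb m hg hord hg1 hg2 v
  · have hπ𝔫 : algebraMap A0 (fc_chart A0 ({x} : Set F0)) π ∈ 𝔫 := by
      apply hP
      rw [H.mem_P1 hC1]
      exact H.over1.pi_mem
    exact (tori_sfd_pt_of_pts_chart hπ hx H τ Q 𝔫 h𝔫 (hpts1 𝔫 h𝔫 hπ𝔫)).1 hP
  · have hπ𝔫 : algebraMap A0 (fc_chart A0 ({x⁻¹} : Set F0)) π ∈ 𝔫 := by
      apply hP
      rw [H2.mem_P1 hC2]
      exact H2.over1.pi_mem
    exact (tori_sfd_pt_of_pts_chart hπ hxi H2 τ Q 𝔫 h𝔫 (hpts2 𝔫 h𝔫 hπ𝔫 hmem)).1 hP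

end FunField

end Fermat.Agent.S35
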